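import Mathlib
import Fermat.Prelude.Thm_CongruenceSubgroup_one_mem_strictPeriods_Gamma0

set_option autoImplicit false

/-!
# Predicates for modular forms as functions, and the `q`-expansion ring homomorphism
-/

open UpperHalfPlane ModularForm CongruenceSubgroup Matrix.SpecialLinearGroup Filter
open scoped MatrixGroups Manifold Topology

namespace Fermat.Agent.IntStr

noncomputable section

/-- Functions which are holomorphic and bounded at `i∞`. -/
def bddSub : Subalgebra ℂ (ℍ → ℂ) where
  carrier := {f | MDiff f ∧ IsBoundedAtImInfty f}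
  mul_mem' hf hg := ⟨hf.1.mul hg.1, hf.2.mul hg.2⟩
  add_mem' hf hg := ⟨hf.1.add hg.1, hf.2.add hg.2⟩
  algebraMap_mem' c := ⟨mdifferentiable_const, Filter.const_boundedAtFilter _ c⟩

theorem mem_bddSub {f : ℍ → ℂ} : f ∈ bddSub ↔ MDiff f ∧ IsBoundedAtImInfty f := Iff.rfl

/-- Functions which are `1`-periodic, holomorphic and bounded at `i∞`. -/
def perSub : Subalgebra ℂ (ℍ → ℂ) where
  carrier := {f | Function.Periodic (f ∘ ofComplex) 1 ∧ MDiff f ∧ IsBoundedAtImInfty f}
  mul_mem' hf hg := ⟨hf.1.mul hg.1, hf.2.1.mul hg.2.1, hf.2.2.mul hg.2.2⟩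
  add_mem' hf hg := ⟨hf.1.add hg.1, hf.2.1.add hg.2.1, hf.2.2.add hg.2.2⟩
  algebraMap_mem' c := ⟨fun _ => rfl, mdifferentiable_const, Filter.const_boundedAtFilter _ c⟩

theorem mem_perSub {f : ℍ → ℂ} : f ∈ perSub ↔
    Function.Periodic (f ∘ ofComplex) 1 ∧ MDiff f ∧ IsBoundedAtImInfty f := Iff.rfl

theorem perSub_le_bddSub : perSub ≤ bddSub := fun _ hf => hf.2

theorem analyticAt_of_perSub {f : ℍ → ℂ} (hf : f ∈ perSub) :
    AnalyticAt ℂ (cuspFunction 1 f) 0 :=
  analyticAt_cuspFunction_zero one_pos (by simpa using hf.1) hf.2.1 hf.2.2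

/-- The `q`-expansion as an algebra homomorphism on `perSub`. -/
def qE : perSub →ₐ[ℂ] PowerSeries ℂ where
  toFun f := qExpansion 1 (f : ℍ → ℂ)
  map_one' := qExpansion_one 1
  map_mul' f g := qExpansion_mul (analyticAt_of_perSub f.2) (analyticAt_of_perSub g.2)
  map_zero' := qExpansion_zero 1
  map_add' f g := qExpansion_add (analyticAt_of_perSub f.2) (analyticAt_of_perSub g.2)
  commutes' c := by
    have h1 : ((algebraMap ℂ perSub c : perSub) : ℍ → ℂ) = c • (1 : ℍ → ℂ) := by
      ext τ
      simp [Algebra.algebraMap_eq_smul_one]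
    rw [h1, qExpansion_smul, qExpansion_one, Algebra.algebraMap_eq_smul_one]
    exact analyticAt_of_perSub (one_mem perSub)

theorem qE_apply (f : perSub) : qE f = qExpansion 1 (f : ℍ → ℂ) := rfl

theorem qE_injective : Function.Injective qE := by
  rw [injective_iff_map_eq_zero]
  intro f hf
  apply Subtype.ext
  exact (qExpansion_eq_zero_iff one_pos (by simpa using f.2.1) f.2.2.1 f.2.2.2).mp hf

/-- `f` is a modular form of level `Γ₀(N)` and weight `k`, as a predicate on functions. -/
structure IsForm (N : ℕ) (k : ℤ) (f : ℍ → ℂ) : Prop where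
  slash : ∀ γ : SL(2, ℤ), γ ∈ Gamma0 N → f ∣[k] γ = f
  holo : MDiff f
  bdd : ∀ γ : SL(2, ℤ), IsBoundedAtImInfty (f ∣[k] γ)

namespace IsForm

variable {N : ℕ} {k l : ℤ} {f g : ℍ → ℂ}

theorem zero : IsForm N k 0 where
  slash γ _ := by simp
  holo := mdifferentiable_const
  bdd γ := by
    rw [SlashAction.zero_slash]
    exact Filter.const_boundedAtFilter _ (0 : ℂ)

theorem add (hf : IsForm N k f) (hg : IsForm N k g) : IsForm N k (f + g) where
  slash γ hγ := by rw [SlashAction.add_slash, hf.slash γ hγ, hg.slash γ hγ]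
  holo := hf.holo.add hg.holo
  bdd γ := by
    rw [SlashAction.add_slash]
    exact (hf.bdd γ).add (hg.bdd γ)

theorem smul (c : ℂ) (hf : IsForm N k f) : IsForm N k (c • f) where
  slash γ hγ := by rw [SL_smul_slash, hf.slash γ hγ]
  holo := hf.holo.const_smul c
  bdd γ := by
    rw [SL_smul_slash]
    exact (hf.bdd γ).smul c

theorem mul (hf : IsForm N k f) (hg : IsForm N l g) : IsForm N (k + l) (f * g) where
  slash γ hγ := by rw [mul_slash_SL2, hf.slash γ hγ, hg.slash γ hγ]
  holo := hf.holo.mul hg.holo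
  bdd γ := by
    rw [mul_slash_SL2]
    exact (hf.bdd γ).mul (hg.bdd γ)

theorem const (c : ℂ) : IsForm N 0 (fun _ => c) where
  slash γ _ := is_invariant_const γ c
  holo := mdifferentiable_const
  bdd γ := by
    have := is_invariant_const γ c
    rw [show (fun _ : ℍ => c) = Function.const ℍ c from rfl, this]
    exact Filter.const_boundedAtFilter _ c

theorem one : IsForm N 0 (1 : ℍ → ℂ) := const 1

theorem cast {k' : ℤ} (h : k = k') (hf : IsForm N k f) : IsForm N k' f := h ▸ hf

theorem pow (hf : IsForm N k f) (n : ℕ) : IsForm N (n * k) (f ^ n) := by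
  induction n with
  | zero => simpa using one
  | succ n ih =>
    rw [pow_succ]
    exact (ih.mul hf).cast (by push_cast; ring)

theorem sum {ι : Type*} (s : Finset ι) (F : ι → ℍ → ℂ) (h : ∀ i ∈ s, IsForm N k (F i)) :
    IsForm N k (∑ i ∈ s, F i) := by
  classical
  induction s using Finset.induction_on with
  | empty => simpa using zero
  | insert i s hi ih =>
    rw [Finset.sum_insert hi]
    exact (h i (Finset.mem_insert_self i s)).add
      (ih fun j hj => h j (Finset.mem_insert_of_mem hj))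

/-- change of level -/
theorem of_one (hf : IsForm 1 k f) : IsForm N k f where
  slash γ _ := hf.slash γ (by rw [Gamma0_mem]; exact Subsingleton.elim _ _)
  holo := hf.holo
  bdd := hf.bdd

theorem mem_bddSub_slash (hf : IsForm N k f) (γ : SL(2, ℤ)) : f ∣[k] γ ∈ bddSub :=
  ⟨hf.holo.slash k _, hf.bdd γ⟩

theorem isBoundedAt (hf : IsForm N k f) {c : OnePoint ℝ} (hc : IsCusp c 𝒮ℒ) :
    c.IsBoundedAt f k := by
  rw [OnePoint.isBoundedAt_iff_forall_SL2Z hc]
  intro γ _
  exact hf.bdd γ

/-- The bundled modular form. -/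
def toModularForm [NeZero N] (hf : IsForm N k f) : ModularForm (Gamma0 N) k where
  toFun := f
  slash_action_eq' := by
    rintro _ ⟨γ, hγ, rfl⟩
    exact hf.slash γ hγ
  holo' := hf.holo
  bdd_at_cusps' hc := hf.isBoundedAt (by
    rwa [Subgroup.IsArithmetic.isCusp_iff_isCusp_SL2Z] at hc)

@[simp] theorem coe_toModularForm [NeZero N] (hf : IsForm N k f) : ⇑hf.toModularForm = f := rfl

theorem of_modularForm [NeZero N] (F : ModularForm (Gamma0 N) k) : IsForm N k F where
  slash γ hγ := SlashInvariantFormClass.slash_action_eq F _ ⟨γ, hγ, rfl⟩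
  holo := F.holo'
  bdd γ := by
    have hc : IsCusp (mapGL ℝ γ • OnePoint.infty) (Gamma0 N : Subgroup (GL (Fin 2) ℝ)) := by
      rw [Subgroup.IsArithmetic.isCusp_iff_isCusp_SL2Z, isCusp_SL2Z_iff']
      exact ⟨γ, rfl⟩
    exact F.bdd_at_cusps' hc _ rfl

theorem of_modularForm_one (F : ModularForm 𝒮ℒ k) : IsForm N k F where
  slash γ hγ := SlashInvariantFormClass.slash_action_eq F _ ⟨γ, rfl⟩
  holo := F.holo'
  bdd γ := by
    have hc : IsCusp (mapGL ℝ γ • OnePoint.infty) 𝒮ℒ := by
      rw [isCusp_SL2Z_iff']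
      exact ⟨γ, rfl⟩
    exact F.bdd_at_cusps' hc _ rfl

/-- The bundled modular form of level one. -/
def toModularFormOne (hf : IsForm 1 k f) : ModularForm 𝒮ℒ k where
  toFun := f
  slash_action_eq' := by
    rintro _ ⟨γ, rfl⟩
    exact hf.slash γ (by rw [Gamma0_mem]; exact Subsingleton.elim _ _)
  holo' := hf.holo
  bdd_at_cusps' hc := hf.isBoundedAt hc

@[simp] theorem coe_toModularFormOne (hf : IsForm 1 k f) : ⇑hf.toModularFormOne = f := rfl

theorem periodic (hf : IsForm N k f) : Function.Periodic (f ∘ ofComplex) 1 := by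
  have hT : f ∣[k] ModularGroup.T = f := hf.slash _ (by
    rw [Gamma0_mem]; simp [ModularGroup.T])
  intro w
  by_cases hw : 0 < w.im
  · have hw' : 0 < (w + 1).im := by simpa using hw
    simp only [Function.comp_apply, ofComplex_apply_of_im_pos hw, ofComplex_apply_of_im_pos hw']
    have h1 := (slash_action_eq'_iff k f _ _).mp (congrFun hT ⟨w, hw⟩)
    have h2 : (ModularGroup.T • (⟨w, hw⟩ : ℍ)) = ⟨w + 1, hw'⟩ := by
      rw [modular_T_smul]
      ext
      simp [add_comm]
    rw [h2] at h1
    rw [h1]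
    simp [ModularGroup.T]
  · have hw' : (w + 1).im ≤ 0 := by simpa using hw
    simp only [Function.comp_apply, ofComplex_apply_of_im_nonpos (not_lt.mp hw),
      ofComplex_apply_of_im_nonpos hw']

theorem mem_perSub (hf : IsForm N k f) : f ∈ perSub :=
  ⟨hf.periodic, hf.holo, by simpa using hf.bdd 1⟩

end IsForm

end

end Fermat.Agent.IntStr
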