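import Mathlib
import Fermat.Agent.IntStr.Basic

set_option autoImplicit false

/-!
# Level one forms are spanned by forms with integral `q`-expansions
-/

open UpperHalfPlane ModularForm CongruenceSubgroup Matrix.SpecialLinearGroup Filter
open scoped MatrixGroups Manifold Topology

namespace Fermat.Agent.IntStr

noncomputable section

/-- `f` has integral `q`-expansion. -/
def IsInt (f : ℍ → ℂ) : Prop := ∀ n : ℕ, ∃ m : ℤ, (qExpansion 1 f).coeff n = m

/-- A power series with integral coefficients. -/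
def intPS : Subring (PowerSeries ℂ) := (PowerSeries.map (Int.castRingHom ℂ)).range

theorem mem_intPS {φ : PowerSeries ℂ} : φ ∈ intPS ↔ ∀ n, ∃ m : ℤ, φ.coeff n = m := by
  constructor
  · rintro ⟨ψ, rfl⟩ n
    exact ⟨ψ.coeff n, by simp⟩
  · intro h
    choose m hm using h
    refine ⟨PowerSeries.mk m, ?_⟩
    ext n
    simp [hm]

theorem isInt_iff (f : ℍ → ℂ) : IsInt f ↔ qExpansion 1 f ∈ intPS := by
  rw [mem_intPS]; rfl

theorem isInt_mul {f g : ℍ → ℂ} (hf : f ∈ perSub) (hg : g ∈ perSub) (hfi : IsInt f)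
    (hgi : IsInt g) : IsInt (f * g) := by
  rw [isInt_iff] at *
  rw [show qExpansion 1 (f * g) = qExpansion 1 f * qExpansion 1 g from
    map_mul qE (⟨f, hf⟩ : perSub) ⟨g, hg⟩]
  exact mul_mem hfi hgi

theorem isInt_sub {f g : ℍ → ℂ} (hf : f ∈ perSub) (hg : g ∈ perSub) (hfi : IsInt f)
    (hgi : IsInt g) : IsInt (f - g) := by
  rw [isInt_iff] at *
  rw [show qExpansion 1 (f - g) = qExpansion 1 f - qExpansion 1 g from
    map_sub qE (⟨f, hf⟩ : perSub) ⟨g, hg⟩]
  exact sub_mem hfi hgi

theorem isInt_one : IsInt (1 : ℍ → ℂ) := by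
  rw [isInt_iff, qExpansion_one]
  exact one_mem _

theorem isInt_pow {f : ℍ → ℂ} (hf : f ∈ perSub) (hfi : IsInt f) (n : ℕ) : IsInt (f ^ n) := by
  induction n with
  | zero => simpa using isInt_one
  | succ n ih => rw [pow_succ]; exact isInt_mul (pow_mem hf n) hf ih hfi

theorem isInt_E₄ : IsInt (E₄ : ℍ → ℂ) := by
  intro n
  have h := EisensteinSeries.E_qExpansion_coeff (k := 4) (by norm_num) ⟨2, rfl⟩ n
  refine ⟨if n = 0 then 1 else 240 * (ArithmeticFunction.sigma 3 n : ℤ), ?_⟩
  rw [h, show bernoulli 4 = -1 / 30 by decide +kernel]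
  split_ifs
  · simp
  · push_cast
    norm_num

theorem isInt_E₆ : IsInt (E₆ : ℍ → ℂ) := by
  intro n
  have h := EisensteinSeries.E_qExpansion_coeff (k := 6) (by norm_num) ⟨3, rfl⟩ n
  refine ⟨if n = 0 then 1 else -504 * (ArithmeticFunction.sigma 5 n : ℤ), ?_⟩
  rw [h, show bernoulli 6 = 1 / 42 by decide +kernel]
  split_ifs
  · simp
  · push_cast
    norm_num

theorem isForm_E₄ (N : ℕ) : IsForm N 4 (E₄ : ℍ → ℂ) := IsForm.of_modularForm_one E₄
theorem isForm_E₆ (N : ℕ) : IsForm N 6 (E₆ : ℍ → ℂ) := IsForm.of_modularForm_one E₆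

/-- `1728 Δ` -/
def delta' : ℍ → ℂ := (E₄ : ℍ → ℂ) ^ 3 - (E₆ : ℍ → ℂ) ^ 2

theorem delta'_eq : delta' = (1728 : ℂ) • (ModularForm.discriminant : ℍ → ℂ) := by
  ext z
  simp only [delta', Pi.sub_apply, Pi.pow_apply, Pi.smul_apply, smul_eq_mul]
  rw [discriminant_eq_E₄_cube_sub_E₆_sq z]
  ring

theorem isForm_delta' (N : ℕ) : IsForm N 12 delta' := by
  have h1 := ((isForm_E₄ N).pow 3).cast (k' := 12) (by norm_num)
  have h2 := (((isForm_E₆ N).pow 2).cast (k' := 12) (by norm_num)).smul (-1)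
  have := h1.add h2
  have h3 : delta' = (E₄ : ℍ → ℂ) ^ 3 + (-1 : ℂ) • (E₆ : ℍ → ℂ) ^ 2 := by
    rw [delta', neg_one_smul, sub_eq_add_neg]
  rw [h3]
  exact this

theorem isInt_delta' : IsInt delta' :=
  isInt_sub (pow_mem (isForm_E₄ 1).mem_perSub 3) (pow_mem (isForm_E₆ 1).mem_perSub 2)
    (isInt_pow (isForm_E₄ 1).mem_perSub isInt_E₄ 3) (isInt_pow (isForm_E₆ 1).mem_perSub isInt_E₆ 2)

/-- For even `k ≥ 0`, `k ≠ 2`, there is an integral form of weight `k` with constant term `1`. -/
theorem exists_monic_form (k : ℕ) (hk : Even k) (hk2 : k ≠ 2) :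
    ∃ e : ℍ → ℂ, IsForm 1 k e ∧ IsInt e ∧ (qExpansion 1 e).coeff 0 = 1 := by
  obtain ⟨a, b, hab⟩ : ∃ a b : ℕ, k = 4 * a + 6 * b := by
    obtain ⟨m, rfl⟩ := hk
    rcases Nat.even_or_odd m with ⟨c, hc⟩ | ⟨c, hc⟩
    · exact ⟨c, 0, by omega⟩
    · exact ⟨c - 1, 1, by omega⟩
  refine ⟨(E₄ : ℍ → ℂ) ^ a * (E₆ : ℍ → ℂ) ^ b, ?_, ?_, ?_⟩
  · exact (((isForm_E₄ 1).pow a).mul ((isForm_E₆ 1).pow b)).cast (by rw [hab]; push_cast; ring)
  · exact isInt_mul (pow_mem (isForm_E₄ 1).mem_perSub a) (pow_mem (isForm_E₆ 1).mem_perSub b)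
      (isInt_pow (isForm_E₄ 1).mem_perSub isInt_E₄ a) (isInt_pow (isForm_E₆ 1).mem_perSub isInt_E₆ b)
  · have h := map_mul qE ((⟨E₄, (isForm_E₄ 1).mem_perSub⟩ : perSub) ^ a)
      ((⟨E₆, (isForm_E₆ 1).mem_perSub⟩ : perSub) ^ b)
    rw [map_pow, map_pow] at h
    have h' : qExpansion 1 ((E₄ : ℍ → ℂ) ^ a * (E₆ : ℍ → ℂ) ^ b) =
      (qExpansion 1 (E₄ : ℍ → ℂ)) ^ a * (qExpansion 1 (E₆ : ℍ → ℂ)) ^ b := h
    rw [h', PowerSeries.coeff_zero_eq_constantCoeff, map_mul, map_pow, map_pow,
      ← PowerSeries.coeff_zero_eq_constantCoeff_apply,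
      ← PowerSeries.coeff_zero_eq_constantCoeff_apply,
      EisensteinSeries.E_qExpansion_coeff_zero _ ⟨2, rfl⟩,
      EisensteinSeries.E_qExpansion_coeff_zero _ ⟨3, rfl⟩]
    simp

/-- The span of the level one integral forms. -/
def intSpan (k : ℤ) : Submodule ℂ (ℍ → ℂ) := Submodule.span ℂ {g | IsForm 1 k g ∧ IsInt g}

theorem levelOne_nat (k : ℕ) : ∀ f : ModularForm 𝒮ℒ k, (f : ℍ → ℂ) ∈ intSpan k := by
  induction k using Nat.strong_induction_on with
  | _ k ih =>
    intro f
    rcases Nat.even_or_odd k with hk | hk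
    · by_cases hk2 : k = 2
      · subst hk2
        have h0 : f = 0 := (rank_zero_iff_forall_zero.mp levelOne_weight_two_rank_zero) f
        rw [h0]
        exact Submodule.zero_mem _
      · obtain ⟨e, he, hei, he0⟩ := exists_monic_form k hk hk2
        -- subtract multiple of `e`
        set c : ℂ := (qExpansion 1 f).coeff 0 with hc
        let g : ModularForm 𝒮ℒ k := f - c • he.toModularFormOne
        have hg0 : (qExpansion 1 g).coeff 0 = 0 := by
          have h1 : (g : ℍ → ℂ) = (f : ℍ → ℂ) - c • e := rfl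
          have hfper : (f : ℍ → ℂ) ∈ perSub :=
            (IsForm.of_modularForm_one (N := 1) f).mem_perSub
          have h2 := map_sub qE (⟨f, hfper⟩ : perSub) (c • (⟨e, he.mem_perSub⟩ : perSub))
          rw [map_smul] at h2
          have h3 : qExpansion 1 ((f : ℍ → ℂ) - c • e) =
            qExpansion 1 (f : ℍ → ℂ) - c • qExpansion 1 e := h2
          rw [h1, h3, map_sub, PowerSeries.coeff_smul, he0, ← hc]
          simp
        have hgf : (f : ℍ → ℂ) = (g : ℍ → ℂ) + c • e := by
          show (f : ℍ → ℂ) = ((f : ℍ → ℂ) - c • e) + c • e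
          rw [sub_add_cancel]
        have hemem : e ∈ intSpan k := Submodule.subset_span ⟨he, hei⟩
        suffices hg : (g : ℍ → ℂ) ∈ intSpan k by
          rw [hgf]
          exact Submodule.add_mem _ hg (Submodule.smul_mem _ _ hemem)
        have hgd := discriminant_mul_discriminantEquiv (toCuspForm g hg0)
        have hgd' : (g : ℍ → ℂ) = (ModularForm.discriminant : ℍ → ℂ) *
          (CuspForm.discriminantEquiv (toCuspForm g hg0) : ℍ → ℂ) := by
          rw [hgd]; rfl
        rcases lt_or_ge k 12 with hk12 | hk12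
        · have hz : CuspForm.discriminantEquiv (toCuspForm g hg0) = 0 :=
            rank_zero_iff_forall_zero.mp (levelOne_neg_weight_rank_zero (by lia)) _
          rw [hgd', hz]
          simp
        · -- induction
          let F : ModularForm 𝒮ℒ ((k - 12 : ℕ) : ℤ) :=
            ModularForm.mcast (by lia) (CuspForm.discriminantEquiv (toCuspForm g hg0))
          have hF : (F : ℍ → ℂ) = (CuspForm.discriminantEquiv (toCuspForm g hg0) : ℍ → ℂ) := rfl
          have hFm := ih (k - 12) (by lia) F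
          rw [hgd', ← hF]
          -- multiply by `Δ = delta'/1728`
          have key : ∀ u ∈ intSpan ((k - 12 : ℕ) : ℤ), delta' * u ∈ intSpan k := by
            intro u hu
            refine Submodule.span_induction (p := fun u _ => delta' * u ∈ intSpan k)
              ?_ ?_ ?_ ?_ hu
            · rintro v ⟨hv, hvi⟩
              refine Submodule.subset_span ⟨?_, ?_⟩
              · exact ((isForm_delta' 1).mul hv).cast (by lia)
              · exact isInt_mul (isForm_delta' 1).mem_perSub hv.mem_perSub isInt_delta' hvi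
            · rw [mul_zero]; exact Submodule.zero_mem _
            · intro x y _ _ hx hy
              rw [mul_add]; exact Submodule.add_mem _ hx hy
            · intro a x _ hx
              rw [mul_smul_comm]; exact Submodule.smul_mem _ _ hx
          have h4 := Submodule.smul_mem _ (1728 : ℂ)⁻¹ (key _ hFm)
          rw [delta'_eq, smul_mul_assoc, smul_smul, inv_mul_cancel₀ (by norm_num), one_smul] at h4
          exact h4
    · have h0 : f = 0 := levelOne_odd_weight_eq_zero (by exact_mod_cast hk) f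
      rw [h0]
      exact Submodule.zero_mem _

theorem levelOne_span {k : ℤ} {f : ℍ → ℂ} (hf : IsForm 1 k f) : f ∈ intSpan k := by
  rcases lt_or_ge k 0 with hk | hk
  · have h0 : hf.toModularFormOne = 0 :=
      rank_zero_iff_forall_zero.mp (levelOne_neg_weight_rank_zero hk) _
    have h1 : f = 0 := by
      rw [← hf.coe_toModularFormOne, h0]; rfl
    rw [h1]
    exact Submodule.zero_mem _
  · lift k to ℕ using hk
    exact levelOne_nat k hf.toModularFormOne

end

end Fermat.Agent.IntStr
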