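import Mathlib
import Fermat.Prelude.Def_ModularForm_HeckeOperator
import Fermat.Prelude.Thm_UpperHalfPlane_qCoeff_heckeT
import Fermat.Prelude.Thm_UpperHalfPlane_qCoeff_heckeU
import Fermat.Prelude.Thm_ModularForm_periodic_heckeT_comp_ofComplex
import Fermat.Prelude.Thm_ModularForm_periodic_heckeU_comp_ofComplex
import Fermat.Prelude.Thm_ModularForm_mdifferentiable_heckeT
import Fermat.Prelude.Thm_ModularForm_mdifferentiable_heckeU
import Fermat.Prelude.Thm_ModularForm_isBoundedAtImInfty_heckeT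
import Fermat.Prelude.Thm_ModularForm_isBoundedAtImInfty_heckeU
import Fermat.Agent.IntStr.LevelOne

set_option autoImplicit false

/-!
# The form `Δ(Nτ)` and its conjugates
-/

open UpperHalfPlane ModularForm CongruenceSubgroup Matrix.SpecialLinearGroup Filter
open scoped MatrixGroups Manifold Topology

namespace Fermat.Agent.IntStr

noncomputable section

theorem val_mapGL_eq (γ : SL(2, ℤ)) : ((mapGL ℝ γ : GL (Fin 2) ℝ) : Matrix (Fin 2) (Fin 2) ℝ) =
    !![(γ 0 0 : ℝ), (γ 0 1 : ℝ); (γ 1 0 : ℝ), (γ 1 1 : ℝ)] := by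
  ext i j
  fin_cases i <;> fin_cases j <;> simp

/-- Hermite normal form of `diag(N,1) γ`. -/
theorem exists_hermite {N : ℕ} (hN : N ≠ 0) (γ : SL(2, ℤ)) :
    ∃ (γ' : SL(2, ℤ)) (a b d : ℤ) (had : (a : ℝ) * (d : ℝ) ≠ 0), 0 < a ∧ 0 < d ∧ a * d = N ∧
      heckeDiagMatrix N * (mapGL ℝ γ : GL (Fin 2) ℝ) = mapGL ℝ γ' * upperTriangularGL a b d had ∧
      (d = 1 → γ ∈ Gamma0 N) := by
  have hdet : γ 0 0 * γ 1 1 - γ 0 1 * γ 1 0 = 1 := by
    have := γ.det_coe
    rwa [Matrix.det_fin_two] at this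
  set A := γ 0 0
  set B := γ 0 1
  set C := γ 1 0
  set D := γ 1 1
  have hN' : (N : ℤ) ≠ 0 := by exact_mod_cast hN
  set g : ℤ := (Int.gcd (N * A) C : ℤ) with hg
  have hg0 : g ≠ 0 := by
    intro h
    rw [hg, Int.natCast_eq_zero, Int.gcd_eq_zero_iff] at h
    obtain ⟨h1, h2⟩ := h
    have hA : A = 0 := by
      rcases mul_eq_zero.mp h1 with h | h
      · exact absurd h hN'
      · exact h
    rw [hA, h2] at hdet
    simp at hdet
  have hgpos : 0 < g := lt_of_le_of_ne (by rw [hg]; positivity) (Ne.symm hg0)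
  obtain ⟨x, hx⟩ : g ∣ N * A := Int.gcd_dvd_left _ _
  obtain ⟨y, hy⟩ : g ∣ C := Int.gcd_dvd_right _ _
  obtain ⟨s, t, hst⟩ : ∃ s t : ℤ, s * x + t * y = 1 := by
    have hb := Int.gcd_eq_gcd_ab (N * A) C
    rw [← hg] at hb
    refine ⟨Int.gcdA (N * A) C, Int.gcdB (N * A) C, ?_⟩
    have : g * (Int.gcdA (N * A) C * x + Int.gcdB (N * A) C * y) = g * 1 := by
      rw [mul_one]
      conv_rhs => rw [hb]
      rw [mul_add, hx, hy]
      have h1 : (N * A).gcd C = (g * x).gcd (g * y) := by rw [← hx, ← hy]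
      ring
    exact mul_left_cancel₀ hg0 this
  set d : ℤ := x * D - y * (N * B) with hd
  have hgd : g * d = N := by
    have : g * d = (g * x) * D - (g * y) * (N * B) := by rw [hd]; ring
    rw [this, ← hx, ← hy]
    linear_combination (N : ℤ) * hdet
  have hdpos : 0 < d := by
    have h1 : 0 < g * d := by rw [hgd]; exact_mod_cast Nat.pos_of_ne_zero hN
    exact (mul_pos_iff_of_pos_left hgpos).mp h1
  have had : (g : ℝ) * (d : ℝ) ≠ 0 := by
    have : g * d ≠ 0 := by rw [hgd]; exact hN'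
    exact_mod_cast this
  let γ' : SL(2, ℤ) := ⟨!![x, -t; y, s], by rw [Matrix.det_fin_two_of]; linear_combination hst⟩
  refine ⟨γ', g, s * (N * B) + t * D, d, had, hgpos, hdpos, hgd, ?_, ?_⟩
  · apply Units.ext
    rw [Units.val_mul, Units.val_mul, val_mapGL_eq, val_mapGL_eq, val_heckeDiagMatrix hN,
      val_upperTriangularGL]
    have e00 : ((γ' 0 0 : ℤ) : ℝ) = x := rfl
    have e01 : ((γ' 0 1 : ℤ) : ℝ) = -t := by
      have : γ' 0 1 = -t := rfl
      rw [this]; push_cast; ring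
    have e10 : ((γ' 1 0 : ℤ) : ℝ) = y := rfl
    have e11 : ((γ' 1 1 : ℤ) : ℝ) = s := rfl
    rw [e00, e01, e10, e11]
    have hxR : (N : ℝ) * A = g * x := by exact_mod_cast hx
    have hyR : (C : ℝ) = g * y := by exact_mod_cast hy
    have hstR : (s : ℝ) * x + t * y = 1 := by exact_mod_cast hst
    have hdR : (d : ℝ) = x * D - y * (N * B) := by exact_mod_cast hd
    ext i j
    fin_cases i <;> fin_cases j <;> simp [Matrix.mul_apply, Fin.sum_univ_two]
    · rw [hxR]; ring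
    · rw [hdR]; linear_combination (-(N : ℝ) * B) * hstR
    · rw [hyR]; ring
    · rw [hdR]; linear_combination (-(D : ℝ)) * hstR
  · intro hd1
    rw [Gamma0_mem]
    have hgN : g = N := by rw [← hgd, hd1, mul_one]
    have : (N : ℤ) ∣ C := ⟨y, by rw [hy, hgN]⟩
    exact (ZMod.intCast_zmod_eq_zero_iff_dvd _ _).mpr this

theorem slash_mapGL {k : ℤ} {f : ℍ → ℂ} (hf : IsForm 1 k f) (γ : SL(2, ℤ)) :
    f ∣[k] (mapGL ℝ γ : GL (Fin 2) ℝ) = f :=
  hf.slash γ (by rw [Gamma0_mem]; exact Subsingleton.elim _ _)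

/-- scaling a level one form -/
theorem isForm_scale {N : ℕ} (hN : N ≠ 0) {k : ℤ} {f : ℍ → ℂ} (hf : IsForm 1 k f) :
    IsForm N k (f ∣[k] heckeDiagMatrix N) where
  slash γ hγ := by
    rw [SL_slash, ← SlashAction.slash_mul]
    rw [Gamma0_mem] at hγ
    obtain ⟨c, hc⟩ := (ZMod.intCast_zmod_eq_zero_iff_dvd _ _).mp hγ
    have hdet : γ 0 0 * γ 1 1 - γ 0 1 * γ 1 0 = 1 := by
      have := γ.det_coe
      rwa [Matrix.det_fin_two] at this
    let γ' : SL(2, ℤ) := ⟨!![γ 0 0, N * γ 0 1; c, γ 1 1], by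
      rw [Matrix.det_fin_two_of]; rw [hc] at hdet; linear_combination hdet⟩
    have key : heckeDiagMatrix N * (mapGL ℝ γ : GL (Fin 2) ℝ) =
        mapGL ℝ γ' * heckeDiagMatrix N := by
      apply Units.ext
      rw [Units.val_mul, Units.val_mul, val_mapGL_eq, val_mapGL_eq, val_heckeDiagMatrix hN]
      have e00 : ((γ' 0 0 : ℤ) : ℝ) = γ 0 0 := rfl
      have e01 : ((γ' 0 1 : ℤ) : ℝ) = N * γ 0 1 := by
        have : γ' 0 1 = N * γ 0 1 := rfl
        rw [this]; push_cast; ring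
      have e10 : ((γ' 1 0 : ℤ) : ℝ) = c := rfl
      have e11 : ((γ' 1 1 : ℤ) : ℝ) = γ 1 1 := rfl
      have hcR : ((γ 1 0 : ℤ) : ℝ) = N * c := by exact_mod_cast hc
      rw [e00, e01, e10, e11]
      ext i j
      fin_cases i <;> fin_cases j <;> simp [Matrix.mul_apply, Fin.sum_univ_two]
      · ring
      · rw [hcR]; ring
    rw [show (((γ : SL(2, ℤ)) : GL (Fin 2) ℝ)) = mapGL ℝ γ from rfl, key, SlashAction.slash_mul,
      slash_mapGL hf]
  holo := hf.holo.slash k _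
  bdd γ := by
    rw [SL_slash, ← SlashAction.slash_mul]
    obtain ⟨γ', a, b, d, had, -, -, -, h, -⟩ := exists_hermite hN γ
    rw [show (((γ : SL(2, ℤ)) : GL (Fin 2) ℝ)) = mapGL ℝ γ from rfl, h, SlashAction.slash_mul,
      slash_mapGL hf]
    apply IsBoundedAtImInfty.slash
    · rw [val_upperTriangularGL]; simp
    · simpa using hf.bdd 1

/-- coefficients of the scaled form -/
theorem coeff_scale {N : ℕ} (hN : N ≠ 0) {k : ℤ} {f : ℍ → ℂ} (hf : IsForm 1 k f) (n : ℕ) :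
    (qExpansion 1 (f ∣[k] heckeDiagMatrix N)).coeff n =
      if N ∣ n then (N : ℂ) ^ (k - 1) * (qExpansion 1 f).coeff (n / N) else 0 := by
  have hp := hf.mem_perSub
  have hT : heckeT k N f ∈ perSub := ⟨ModularForm.periodic_heckeT_comp_ofComplex hp.1 k N,
    ModularForm.mdifferentiable_heckeT hp.2.1 k N,
    ModularForm.isBoundedAtImInfty_heckeT hp.2.2 k N⟩
  have hU : heckeU k N f ∈ perSub := ⟨ModularForm.periodic_heckeU_comp_ofComplex hp.1 k N,
    ModularForm.mdifferentiable_heckeU hp.2.1 k N,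
    ModularForm.isBoundedAtImInfty_heckeU hp.2.2 k N⟩
  have h1 : f ∣[k] heckeDiagMatrix N = heckeT k N f - heckeU k N f := by
    rw [heckeT_eq_heckeU_add, add_sub_cancel_left]
  have h2 : qExpansion 1 (heckeT k N f - heckeU k N f) =
      qExpansion 1 (heckeT k N f) - qExpansion 1 (heckeU k N f) :=
    map_sub qE (⟨_, hT⟩ : perSub) ⟨_, hU⟩
  have h3 := UpperHalfPlane.qCoeff_heckeT hp.1 hp.2.1 hp.2.2 k hN n
  have h4 := UpperHalfPlane.qCoeff_heckeU hp.1 hp.2.1 hp.2.2 k hN n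
  rw [coeffHeckeT_eq_coeffHeckeU_add] at h3
  simp only [ModularFormClass.qCoeff] at h3 h4
  rw [h1, h2, map_sub, h3, h4, add_sub_cancel_left]

/-- The form `h_N = 1728 N^11 Δ(Nτ)`. -/
def hN (N : ℕ) : ℍ → ℂ := delta' ∣[(12 : ℤ)] heckeDiagMatrix N

theorem isForm_hN {N : ℕ} (h0 : N ≠ 0) : IsForm N 12 (hN N) := isForm_scale h0 (isForm_delta' 1)

theorem isInt_hN {N : ℕ} (h0 : N ≠ 0) : IsInt (hN N) := by
  intro n
  rw [hN, coeff_scale h0 (isForm_delta' 1)]
  split_ifs with h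
  · obtain ⟨m, hm⟩ := isInt_delta' (n / N)
    refine ⟨(N : ℤ) ^ 11 * m, ?_⟩
    rw [hm, show ((12 : ℤ) - 1) = ((11 : ℕ) : ℤ) by norm_num, zpow_natCast]
    push_cast
    ring
  · exact ⟨0, by simp⟩

theorem delta'_bounds : ∃ C : ℝ, 0 < C ∧ ∃ A : ℝ, ∀ τ : ℍ, A ≤ τ.im →
    Real.exp (-2 * Real.pi * τ.im) ≤ C * ‖delta' τ‖ ∧
      ‖delta' τ‖ ≤ C * Real.exp (-2 * Real.pi * τ.im) := by
  have h1 := exp_isBigO_discriminant
  have h2 := CuspFormClass.exp_decay_atImInfty CuspForm.discriminant one_pos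
    one_mem_strictPeriods_SL
  rw [Asymptotics.isBigO_iff'] at h1 h2
  obtain ⟨C1, hC1, h1⟩ := h1
  obtain ⟨C2, hC2, h2⟩ := h2
  rw [Filter.Eventually, UpperHalfPlane.atImInfty_mem] at h1 h2
  obtain ⟨A1, hA1⟩ := h1
  obtain ⟨A2, hA2⟩ := h2
  refine ⟨C1 + 1728 * C2, by positivity, max A1 A2, fun τ hτ => ?_⟩
  have e1 := hA1 τ (le_trans (le_max_left _ _) hτ)
  have e2 := hA2 τ (le_trans (le_max_right _ _) hτ)
  simp only [Set.mem_ofPred_eq] at e1 e2
  rw [Real.norm_of_nonneg (Real.exp_pos _).le] at e1 e2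
  have hd : ‖delta' τ‖ = 1728 * ‖ModularForm.discriminant τ‖ := by
    rw [delta'_eq]; simp
  rw [div_one] at e2
  rw [hd]
  have hdn : (0 : ℝ) ≤ ‖ModularForm.discriminant τ‖ := norm_nonneg _
  have hexp := (Real.exp_pos (-2 * Real.pi * τ.im)).le
  have e2' : ‖ModularForm.discriminant τ‖ ≤ C2 * Real.exp (-2 * Real.pi * τ.im) := e2
  constructor
  · calc Real.exp (-2 * Real.pi * τ.im) ≤ C1 * ‖ModularForm.discriminant τ‖ := e1
      _ ≤ (C1 + 1728 * C2) * (1728 * ‖ModularForm.discriminant τ‖) := by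
        nlinarith [mul_nonneg hC1.le hdn, mul_nonneg hC2.le hdn]
  · calc 1728 * ‖ModularForm.discriminant τ‖ ≤ 1728 * (C2 * Real.exp (-2 * Real.pi * τ.im)) := by
          linarith
      _ ≤ (C1 + 1728 * C2) * Real.exp (-2 * Real.pi * τ.im) := by
        nlinarith [mul_nonneg hC1.le hexp]

theorem im_upperTriangularGL_smul {a b d : ℝ} (had : a * d ≠ 0) (h : 0 < a * d) (τ : ℍ) :
    (upperTriangularGL a b d had • τ).im = a / d * τ.im := by
  have hd : d ≠ 0 := right_ne_zero_of_mul had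
  have hdet : ((upperTriangularGL a b d had).det : ℝ) = a * d := by
    rw [Matrix.GeneralLinearGroup.val_det_apply, val_upperTriangularGL, Matrix.det_fin_two_of]
    ring
  rw [UpperHalfPlane.im_smul_eq_div_normSq, hdet, abs_of_pos h]
  simp only [denom, val_upperTriangularGL]
  simp
  field_simp

theorem norm_slash_upperTriangularGL {a b d : ℝ} (had : a * d ≠ 0) (h : 0 < a * d) (hd : 0 < d)
    (k : ℤ) (f : ℍ → ℂ) (τ : ℍ) :
    ‖(f ∣[k] upperTriangularGL a b d had) τ‖ =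
      ‖f (upperTriangularGL a b d had • τ)‖ * (a * d) ^ (k - 1) * d ^ (-k) := by
  have hdet : ((upperTriangularGL a b d had).det : ℝ) = a * d := by
    rw [Matrix.GeneralLinearGroup.val_det_apply, val_upperTriangularGL, Matrix.det_fin_two_of]
    ring
  rw [ModularForm.slash_apply, hdet, abs_of_pos h, norm_mul, norm_mul, norm_zpow, norm_zpow]
  have h1 : denom (upperTriangularGL a b d had) (τ : ℂ) = (d : ℂ) := by
    simp [denom, val_upperTriangularGL]
  rw [h1, Complex.norm_real, Complex.norm_real, Real.norm_of_nonneg h.le,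
    Real.norm_of_nonneg hd.le]
  congr 2
  unfold UpperHalfPlane.σ
  split_ifs <;> simp

theorem gamma0_of_slash_hN {N : ℕ} (h0 : N ≠ 0) {γ : SL(2, ℤ)}
    (h : hN N ∣[(12 : ℤ)] γ = hN N) : γ ∈ Gamma0 N := by
  obtain ⟨γ', a, b, d, had, ha, hd, hadN, hmat, himp⟩ := exists_hermite h0 γ
  apply himp
  by_contra hd1
  have hd2 : 2 ≤ d := by omega
  have heq : delta' ∣[(12 : ℤ)] upperTriangularGL a b d had = hN N := by
    rw [← h, hN, SL_slash, ← SlashAction.slash_mul,
      show (((γ : SL(2, ℤ)) : GL (Fin 2) ℝ)) = mapGL ℝ γ from rfl, hmat, SlashAction.slash_mul,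
      slash_mapGL (isForm_delta' 1)]
  have haR : (0 : ℝ) < a := by exact_mod_cast ha
  have hdR : (0 : ℝ) < d := by exact_mod_cast hd
  have hNR : (0 : ℝ) < N := by exact_mod_cast Nat.pos_of_ne_zero h0
  have hadR : (a : ℝ) * d = N := by exact_mod_cast hadN
  obtain ⟨C, hC, A, hA⟩ := delta'_bounds
  -- the slope
  have hslope : 0 < (N : ℝ) - a / d := by
    have h1 : (a : ℝ) / d < N := by
      rw [div_lt_iff₀ hdR, ← hadR]
      have hd2R : (2 : ℝ) ≤ d := by exact_mod_cast hd2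
      nlinarith [mul_pos haR hdR]
    linarith
  -- the inequality for all large `y`
  have hineq : ∀ y : ℝ, 0 < y → A ≤ a / d * y → A ≤ N * y →
      Real.exp (2 * Real.pi * ((N : ℝ) - a / d) * y) ≤ C ^ 2 * (d : ℝ) ^ 12 := by
    intro y hy h1 h2
    let τ : ℍ := ⟨y * Complex.I, by simpa using hy⟩
    have hτ : τ.im = y := by
      show (y * Complex.I : ℂ).im = y
      simp
    have e1 := congrFun heq τ
    have e2 := congrArg norm e1
    rw [norm_slash_upperTriangularGL had (mul_pos haR hdR) hdR, hN,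
      slash_heckeDiagMatrix_apply _ h0, norm_mul, norm_zpow] at e2
    have hdiag : (heckeDiagMatrix N • τ).im = N * y := by
      have h3 : ((heckeDiagMatrix N • τ : ℍ) : ℂ) = (N : ℂ) * (τ : ℂ) :=
        coe_heckeDiagMatrix_smul h0 τ
      have h4 := congrArg Complex.im h3
      rw [UpperHalfPlane.coe_im] at h4
      rw [h4, Complex.mul_im]
      simp [hτ]
    have htri : (upperTriangularGL (a : ℝ) b d had • τ).im = a / d * y := by
      rw [im_upperTriangularGL_smul had (mul_pos haR hdR), hτ]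
    have b1 := (hA (upperTriangularGL (a : ℝ) b d had • τ) (by rw [htri]; exact h1)).1
    have b2 := (hA (heckeDiagMatrix N • τ) (by rw [hdiag]; exact h2)).2
    rw [htri] at b1
    rw [hdiag] at b2
    rw [hadR] at e2
    have hNc : ‖(N : ℂ)‖ = (N : ℝ) := by simp
    rw [hNc] at e2
    have hNpow : (0 : ℝ) < (N : ℝ) ^ ((12 : ℤ) - 1) := zpow_pos hNR _
    have e3 : ‖delta' (upperTriangularGL (a : ℝ) b d had • τ)‖ * (d : ℝ) ^ (-(12 : ℤ)) =
        ‖delta' (heckeDiagMatrix N • τ)‖ := by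
      have : (N : ℝ) ^ ((12 : ℤ) - 1) *
          (‖delta' (upperTriangularGL (a : ℝ) b d had • τ)‖ * (d : ℝ) ^ (-(12 : ℤ))) =
          (N : ℝ) ^ ((12 : ℤ) - 1) * ‖delta' (heckeDiagMatrix N • τ)‖ := by
        rw [← e2]; ring
      exact mul_left_cancel₀ hNpow.ne' this
    have hd12 : (d : ℝ) ^ (-(12 : ℤ)) = ((d : ℝ) ^ 12)⁻¹ := by
      rw [zpow_neg]; norm_cast
    rw [hd12] at e3
    have hdpos : (0 : ℝ) < (d : ℝ) ^ 12 := by positivity
    have e4 : ‖delta' (upperTriangularGL (a : ℝ) b d had • τ)‖ =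
        ‖delta' (heckeDiagMatrix N • τ)‖ * (d : ℝ) ^ 12 := by
      rw [← e3]; field_simp
    rw [e4] at b1
    have b3 : Real.exp (-2 * Real.pi * (a / d * y)) ≤
        C ^ 2 * (d : ℝ) ^ 12 * Real.exp (-2 * Real.pi * (N * y)) := by
      calc _ ≤ C * (‖delta' (heckeDiagMatrix N • τ)‖ * (d : ℝ) ^ 12) := b1
        _ ≤ C * ((C * Real.exp (-2 * Real.pi * (N * y))) * (d : ℝ) ^ 12) := by gcongr
        _ = _ := by ring
    have b4 : Real.exp (2 * Real.pi * ((N : ℝ) - a / d) * y) =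
        Real.exp (-2 * Real.pi * (a / d * y)) / Real.exp (-2 * Real.pi * (N * y)) := by
      rw [← Real.exp_sub]; congr 1; ring
    rw [b4, div_le_iff₀ (Real.exp_pos _)]
    exact b3
  -- contradiction
  have htend : Tendsto (fun y : ℝ => Real.exp (2 * Real.pi * ((N : ℝ) - a / d) * y)) atTop atTop :=
    Real.tendsto_exp_atTop.comp (tendsto_id.const_mul_atTop (by positivity))
  have hev := (htend.eventually_gt_atTop (C ^ 2 * (d : ℝ) ^ 12)).and
    ((eventually_gt_atTop 0).and (((tendsto_id.const_mul_atTop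
      (show (0 : ℝ) < a / d by positivity)).eventually_ge_atTop A).and
      ((tendsto_id.const_mul_atTop hNR).eventually_ge_atTop A)))
  obtain ⟨y, h1, h2, h3, h4⟩ := hev.exists
  exact absurd (hineq y h2 h3 h4) (not_le.mpr h1)

end

end Fermat.Agent.IntStr
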