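import Mathlib
import Fermat.Agent.IntStr.DeltaN

set_option autoImplicit false

/-!
# Conjugates of forms over level one, characteristic and interpolation polynomials
-/

open UpperHalfPlane ModularForm CongruenceSubgroup Matrix.SpecialLinearGroup Filter
open scoped MatrixGroups Manifold Topology

namespace Fermat.Agent.IntStr

noncomputable section

/-- The coset space. -/
abbrev Coset (N : ℕ) : Type := SL(2, ℤ) ⧸ Gamma0 N

instance fintypeCoset (N : ℕ) [NeZero N] : Fintype (Coset N) := Subgroup.fintypeQuotientOfFiniteIndex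

instance decidableEqCoset (N : ℕ) : DecidableEq (Coset N) := Classical.decEq _

variable {N : ℕ} {k w : ℤ} {f : ℍ → ℂ}

/-- The conjugate of `f` attached to a coset. -/
def conj (k : ℤ) (f : ℍ → ℂ) (q : Coset N) : ℍ → ℂ := f ∣[k] (q.out)⁻¹

theorem conj_mk (hf : IsForm N k f) (g : SL(2, ℤ)) : conj k f (g : Coset N) = f ∣[k] g⁻¹ := by
  obtain ⟨γ, hγ⟩ := QuotientGroup.mk_out_eq_mul (Gamma0 N) g
  rw [conj, hγ, mul_inv_rev, SlashAction.slash_mul, hf.slash _ (inv_mem γ.2)]

theorem conj_one (hf : IsForm N k f) : conj k f ((1 : SL(2, ℤ)) : Coset N) = f := by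
  rw [conj_mk hf]; simp

theorem conj_slash (hf : IsForm N k f) (q : Coset N) (γ : SL(2, ℤ)) :
    conj k f q ∣[k] γ = conj k f (γ⁻¹ • q) := by
  induction q using QuotientGroup.induction_on with
  | H g =>
    have h1 : γ⁻¹ • (g : Coset N) = ((γ⁻¹ * g : SL(2, ℤ)) : Coset N) := rfl
    rw [h1, conj_mk hf, conj_mk hf, ← SlashAction.slash_mul, mul_inv_rev, inv_inv]

theorem conj_mem_bddSub (hf : IsForm N k f) (q : Coset N) : conj k f q ∈ bddSub :=
  hf.mem_bddSub_slash _

theorem conj_apply_smul (hf : IsForm N k f) (q : Coset N) (γ : SL(2, ℤ)) (τ : ℍ) :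
    conj k f q (γ • τ) = denom γ τ ^ k * conj k f (γ⁻¹ • q) τ := by
  rw [← conj_slash hf, SL_slash_apply, mul_comm (conj k f q (γ • τ)), ← mul_assoc,
    ← zpow_add₀ (denom_ne_zero γ τ), add_neg_cancel, zpow_zero, one_mul]

/-- interpolation polynomial -/
def interp [NeZero N] (u v : Coset N → ℍ → ℂ) : Polynomial (ℍ → ℂ) :=
  ∑ q, Polynomial.C (u q) * ∏ q' ∈ Finset.univ.erase q, (Polynomial.X - Polynomial.C (v q'))

/-- characteristic polynomial -/
def chr [NeZero N] (v : Coset N → ℍ → ℂ) : Polynomial (ℍ → ℂ) :=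
  ∏ q, (Polynomial.X - Polynomial.C (v q))

theorem coeff_mem_of_lifts {S : Subring (ℍ → ℂ)} {p : Polynomial (ℍ → ℂ)}
    (h : p ∈ Polynomial.lifts S.subtype) (i : ℕ) : p.coeff i ∈ S := by
  rw [Polynomial.lifts_iff_coeff_lifts] at h
  obtain ⟨x, hx⟩ := h i
  rw [← hx]
  exact x.2

theorem X_sub_C_mem_lifts {S : Subring (ℍ → ℂ)} {v : ℍ → ℂ} (hv : v ∈ S) :
    (Polynomial.X - Polynomial.C v) ∈ Polynomial.lifts S.subtype := by
  rw [sub_eq_add_neg, ← Polynomial.C_neg]
  apply add_mem (Polynomial.X_mem_lifts _)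
  exact Polynomial.C_mem_lifts S.subtype (⟨-v, neg_mem hv⟩ : S)

theorem coeff_interp_mem [NeZero N] (S : Subring (ℍ → ℂ)) {u v : Coset N → ℍ → ℂ}
    (hu : ∀ q, u q ∈ S) (hv : ∀ q, v q ∈ S) (i : ℕ) : (interp u v).coeff i ∈ S := by
  apply coeff_mem_of_lifts
  apply sum_mem
  intro q _
  apply mul_mem
  · exact Polynomial.C_mem_lifts S.subtype (⟨u q, hu q⟩ : S)
  · exact prod_mem fun q' _ => X_sub_C_mem_lifts (hv q')

theorem coeff_chr_mem [NeZero N] (S : Subring (ℍ → ℂ)) {v : Coset N → ℍ → ℂ}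
    (hv : ∀ q, v q ∈ S) (i : ℕ) : (chr v).coeff i ∈ S := by
  apply coeff_mem_of_lifts
  exact prod_mem fun q' _ => X_sub_C_mem_lifts (hv q')

/-- evaluation at a point -/
abbrev ev (τ : ℍ) : (ℍ → ℂ) →+* ℂ := Pi.evalRingHom (fun _ : ℍ => ℂ) τ

theorem interp_smul [NeZero N] {u v : Coset N → ℍ → ℂ} {s t : ℂ} {γ : SL(2, ℤ)} {τ : ℍ}
    (hu : ∀ q, u q (γ • τ) = s * u (γ⁻¹ • q) τ) (hv : ∀ q, v q (γ • τ) = t * v (γ⁻¹ • q) τ)
    (i : ℕ) :
    (interp u v).coeff i (γ • τ) * t ^ i =
      s * t ^ (Fintype.card (Coset N) - 1) * (interp u v).coeff i τ := by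
  have h1 : ((interp u v).map (ev (γ • τ))).comp (Polynomial.C t * Polynomial.X) =
      Polynomial.C (s * t ^ (Fintype.card (Coset N) - 1)) * (interp u v).map (ev τ) := by
    simp only [interp, Polynomial.map_sum, Polynomial.map_mul, Polynomial.map_prod,
      Polynomial.map_sub, Polynomial.map_X, Polynomial.map_C, Pi.evalRingHom_apply,
      Polynomial.comp, Polynomial.eval₂_finsetSum, Polynomial.eval₂_mul,
      Polynomial.eval₂_finsetProd, Polynomial.eval₂_sub, Polynomial.eval₂_X,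
      Polynomial.eval₂_C]
    rw [Finset.mul_sum]
    apply Fintype.sum_equiv (MulAction.toPerm γ⁻¹)
    intro q
    rw [hu]
    have h2 : ∀ q' : Coset N, (Polynomial.C t * Polynomial.X - Polynomial.C (v q' (γ • τ))) =
        Polynomial.C t * (Polynomial.X - Polynomial.C (v (γ⁻¹ • q') τ)) := by
      intro q'
      rw [hv, Polynomial.C_mul, mul_sub]
    simp only [h2]
    rw [Finset.prod_mul_distrib, Finset.prod_const, Finset.card_erase_of_mem (Finset.mem_univ q),
      Finset.card_univ]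
    have h3 : ∏ q' ∈ Finset.univ.erase q, (Polynomial.X - Polynomial.C (v (γ⁻¹ • q') τ)) =
        ∏ q' ∈ Finset.univ.erase ((MulAction.toPerm γ⁻¹ : Equiv.Perm (Coset N)) q),
          (Polynomial.X - Polynomial.C (v q' τ)) := by
      apply Finset.prod_equiv (MulAction.toPerm γ⁻¹ : Equiv.Perm (Coset N))
      · intro q'
        simp
      · intro q' _
        rfl
    rw [h3]
    simp only [Polynomial.C_mul, Polynomial.C_pow, MulAction.toPerm_apply]
    ring
  have h4 := congrArg (fun p => Polynomial.coeff p i) h1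
  simp only [Polynomial.comp_C_mul_X_coeff, Polynomial.coeff_C_mul, Polynomial.coeff_map,
    Pi.evalRingHom_apply] at h4
  exact h4

theorem chr_smul [NeZero N] {v : Coset N → ℍ → ℂ} {t : ℂ} {γ : SL(2, ℤ)} {τ : ℍ}
    (hv : ∀ q, v q (γ • τ) = t * v (γ⁻¹ • q) τ) (i : ℕ) :
    (chr v).coeff i (γ • τ) * t ^ i =
      t ^ (Fintype.card (Coset N)) * (chr v).coeff i τ := by
  have h1 : ((chr v).map (ev (γ • τ))).comp (Polynomial.C t * Polynomial.X) =
      Polynomial.C (t ^ (Fintype.card (Coset N))) * (chr v).map (ev τ) := by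
    simp only [chr, Polynomial.map_prod, Polynomial.map_sub, Polynomial.map_X, Polynomial.map_C,
      Pi.evalRingHom_apply, Polynomial.comp, Polynomial.eval₂_finsetProd, Polynomial.eval₂_sub,
      Polynomial.eval₂_X, Polynomial.eval₂_C]
    have h2 : ∀ q' : Coset N, (Polynomial.C t * Polynomial.X - Polynomial.C (v q' (γ • τ))) =
        Polynomial.C t * (Polynomial.X - Polynomial.C (v (γ⁻¹ • q') τ)) := by
      intro q'
      rw [hv, Polynomial.C_mul, mul_sub]
    simp only [h2]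
    rw [Finset.prod_mul_distrib, Finset.prod_const, Finset.card_univ, Polynomial.C_pow]
    congr 1
    exact Fintype.prod_equiv (MulAction.toPerm γ⁻¹ : Equiv.Perm (Coset N)) _ _ (fun _ => rfl)
  have h4 := congrArg (fun p => Polynomial.coeff p i) h1
  simp only [Polynomial.comp_C_mul_X_coeff, Polynomial.coeff_C_mul, Polynomial.coeff_map,
    Pi.evalRingHom_apply] at h4
  exact h4

theorem isForm_one_of_smul {m : ℤ} {G : ℍ → ℂ} (hG : G ∈ bddSub)
    (h : ∀ (γ : SL(2, ℤ)) (τ : ℍ), G (γ • τ) = denom γ τ ^ m * G τ) : IsForm 1 m G := by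
  have hs : ∀ γ : SL(2, ℤ), G ∣[m] γ = G := by
    intro γ
    ext τ
    rw [SL_slash_apply, h, mul_comm (denom γ τ ^ m), mul_assoc, ← zpow_add₀ (denom_ne_zero γ τ),
      add_neg_cancel, zpow_zero, mul_one]
  exact ⟨fun γ _ => hs γ, hG.1, fun γ => by rw [hs]; exact hG.2⟩

theorem card_coset_pos [NeZero N] : 0 < Fintype.card (Coset N) := Fintype.card_pos

theorem isForm_coeff_interp [NeZero N] {f h : ℍ → ℂ} (hf : IsForm N k f) (hh : IsForm N w h)
    (i : ℕ) : IsForm 1 (k + w * ((Fintype.card (Coset N) : ℤ) - 1 - i))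
      ((interp (conj (N := N) k f) (conj w h)).coeff i) := by
  apply isForm_one_of_smul
  · exact coeff_interp_mem bddSub.toSubring (fun q => conj_mem_bddSub hf q)
      (fun q => conj_mem_bddSub hh q) i
  · intro γ τ
    have h1 := interp_smul (N := N) (fun q => conj_apply_smul hf q γ τ)
      (fun q => conj_apply_smul hh q γ τ) i
    have hd := denom_ne_zero (γ : GL (Fin 2) ℝ) τ
    have h2 : ((denom (γ : GL (Fin 2) ℝ) τ ^ w) ^ i : ℂ) ≠ 0 := pow_ne_zero _ (zpow_ne_zero _ hd)
    have hcard : ((Fintype.card (Coset N) - 1 : ℕ) : ℤ) = (Fintype.card (Coset N) : ℤ) - 1 := by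
      have := card_coset_pos (N := N)
      omega
    apply mul_right_cancel₀ h2
    rw [h1, ← zpow_natCast, ← zpow_natCast, ← zpow_mul, ← zpow_mul, ← zpow_add₀ hd,
      mul_right_comm, ← zpow_add₀ hd, hcard]
    congr 2
    ring

theorem isForm_coeff_chr [NeZero N] {f : ℍ → ℂ} (hf : IsForm N k f)
    (i : ℕ) : IsForm 1 (k * ((Fintype.card (Coset N) : ℤ) - i))
      ((chr (conj (N := N) k f)).coeff i) := by
  apply isForm_one_of_smul
  · exact coeff_chr_mem bddSub.toSubring (fun q => conj_mem_bddSub hf q) i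
  · intro γ τ
    have h1 := chr_smul (N := N) (fun q => conj_apply_smul hf q γ τ) i
    have hd := denom_ne_zero (γ : GL (Fin 2) ℝ) τ
    have h2 : ((denom (γ : GL (Fin 2) ℝ) τ ^ k) ^ i : ℂ) ≠ 0 := pow_ne_zero _ (zpow_ne_zero _ hd)
    apply mul_right_cancel₀ h2
    rw [h1, ← zpow_natCast, ← zpow_natCast, ← zpow_mul, ← zpow_mul, mul_right_comm,
      ← zpow_add₀ hd]
    congr 2
    ring

/-- `f` is a root of its characteristic polynomial. -/
theorem eval_chr [NeZero N] {f : ℍ → ℂ} (hf : IsForm N k f) :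
    (chr (conj (N := N) k f)).eval f = 0 := by
  rw [chr, Polynomial.eval_prod]
  apply Finset.prod_eq_zero (Finset.mem_univ ((1 : SL(2, ℤ)) : Coset N))
  rw [conj_one hf]
  simp

theorem natDegree_chr [NeZero N] (v : Coset N → ℍ → ℂ) :
    (chr v).natDegree = Fintype.card (Coset N) := by
  rw [chr, Polynomial.natDegree_prod_of_monic _ _ (fun _ _ => Polynomial.monic_X_sub_C _)]
  simp

theorem monic_chr [NeZero N] (v : Coset N → ℍ → ℂ) : (chr v).Monic :=
  Polynomial.monic_prod_of_monic _ _ (fun _ _ => Polynomial.monic_X_sub_C _)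

/-- the "different" -/
def dif [NeZero N] (w : ℤ) (h : ℍ → ℂ) : ℍ → ℂ :=
  ∏ q ∈ Finset.univ.erase ((1 : SL(2, ℤ)) : Coset N), (h - conj w h q)

/-- interpolation formula -/
theorem eval_interp [NeZero N] {f h : ℍ → ℂ} (hf : IsForm N k f) (hh : IsForm N w h) :
    (interp (conj (N := N) k f) (conj w h)).eval h = f * dif (N := N) w h := by
  rw [interp, Polynomial.eval_finsetSum,
    Finset.sum_eq_single ((1 : SL(2, ℤ)) : Coset N)]
  · rw [Polynomial.eval_mul, Polynomial.eval_C, conj_one hf, Polynomial.eval_prod, dif]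
    simp
  · intro q _ hq
    rw [Polynomial.eval_mul, Polynomial.eval_prod]
    have : ∏ q' ∈ Finset.univ.erase q, Polynomial.eval h
        (Polynomial.X - Polynomial.C (conj (N := N) w h q')) = 0 := by
      apply Finset.prod_eq_zero (i := ((1 : SL(2, ℤ)) : Coset N))
      · simp [Ne.symm hq]
      · rw [conj_one hh]; simp
    rw [this, mul_zero]
  · simp

end

end Fermat.Agent.IntStr
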