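import Mathlib
import Fermat.Agent.IntStr.Conj

set_option autoImplicit false

/-!
# Holomorphic quotients from integral relations
-/

open UpperHalfPlane ModularForm CongruenceSubgroup Matrix.SpecialLinearGroup Filter
open scoped MatrixGroups Manifold Topology

namespace Fermat.Agent.IntStr

noncomputable section

theorem root_bound {n : ℕ} (c : ℕ → ℂ) (x : ℂ) (hcn : c n = 1)
    (h : ∑ i ∈ Finset.range (n + 1), c i * x ^ i = 0) (M : ℝ) (hM : ∀ i < n, ‖c i‖ ≤ M) :
    ‖x‖ ≤ max 1 (n * M) := by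
  by_cases hx : ‖x‖ ≤ 1
  · exact le_trans hx (le_max_left _ _)
  · apply le_max_of_le_right
    push Not at hx
    rw [Finset.sum_range_succ, hcn, one_mul] at h
    have h1 : x ^ n = -∑ i ∈ Finset.range n, c i * x ^ i := by
      rw [eq_neg_iff_add_eq_zero, add_comm]; exact h
    rcases Nat.eq_zero_or_pos n with rfl | hn
    · simp at h
    · have h2 : ‖x‖ ^ n ≤ n * M * ‖x‖ ^ (n - 1) := by
        rw [← norm_pow, h1, norm_neg]
        calc ‖∑ i ∈ Finset.range n, c i * x ^ i‖ ≤ ∑ i ∈ Finset.range n, ‖c i * x ^ i‖ :=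
              norm_sum_le _ _
          _ ≤ ∑ i ∈ Finset.range n, M * ‖x‖ ^ (n - 1) := by
              apply Finset.sum_le_sum
              intro i hi
              rw [Finset.mem_range] at hi
              rw [norm_mul, norm_pow]
              have hM0 : 0 ≤ M := le_trans (norm_nonneg _) (hM i hi)
              exact mul_le_mul (hM i hi) (pow_le_pow_right₀ hx.le (by omega)) (by positivity) hM0
          _ = n * M * ‖x‖ ^ (n - 1) := by
              rw [Finset.sum_const, Finset.card_range, nsmul_eq_mul]; ring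
      have h3 : ‖x‖ ^ n = ‖x‖ * ‖x‖ ^ (n - 1) := by
        rw [← pow_succ']; congr 1; omega
      rw [h3] at h2
      have h4 : 0 < ‖x‖ ^ (n - 1) := by positivity
      exact le_of_mul_le_mul_right h2 h4

theorem eventually_ne {g : ℍ → ℂ} (hg : MDiff g) (hg0 : g ≠ 0) {z : ℂ} (hz : 0 < z.im) :
    ∀ᶠ w in 𝓝[≠] z, (g ∘ ofComplex) w ≠ 0 := by
  have han : AnalyticAt ℂ (g ∘ ofComplex) z :=
    (UpperHalfPlane.mdifferentiable_iff.mp hg).analyticAt
      (isOpen_upperHalfPlaneSet.mem_nhds hz)
  rcases han.eventually_eq_zero_or_eventually_ne_zero with h | h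
  · exfalso
    apply hg0
    let τ : ℍ := ⟨z, hz⟩
    apply UpperHalfPlane.eq_zero_of_frequently hg (τ := τ)
    apply Filter.Eventually.frequently
    apply eventually_nhdsWithin_of_eventually_nhds
    have hc : Tendsto (fun w : ℍ => (w : ℂ)) (𝓝 τ) (𝓝 z) := UpperHalfPlane.continuous_coe.tendsto τ
    filter_upwards [hc.eventually h] with w hw
    simpa using hw
  · exact h

/-- Existence of a holomorphic quotient from an integral relation. -/
theorem exists_quotient {n : ℕ} (c : ℕ → ℍ → ℂ) (hc : ∀ i, MDiff (c i)) (hcn : c n = 1)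
    {g0 g1 : ℍ → ℂ} (h0 : MDiff g0) (h1 : MDiff g1) (hg0 : g0 ≠ 0)
    (hrel : ∑ i ∈ Finset.range (n + 1), c i * g1 ^ i * g0 ^ (n - i) = 0) :
    ∃ F : ℍ → ℂ, MDiff F ∧ F * g0 = g1 ∧ ∑ i ∈ Finset.range (n + 1), c i * F ^ i = 0 := by
  classical
  set G0 : ℂ → ℂ := g0 ∘ ofComplex with hG0
  set G1 : ℂ → ℂ := g1 ∘ ofComplex with hG1
  let M : ℂ → ℂ := fun z => G1 z / G0 z
  let Ft : ℂ → ℂ := fun z => limUnder (𝓝[≠] z) M
  have d0 : DifferentiableOn ℂ G0 {z | 0 < z.im} := UpperHalfPlane.mdifferentiable_iff.mp h0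
  have d1 : DifferentiableOn ℂ G1 {z | 0 < z.im} := UpperHalfPlane.mdifferentiable_iff.mp h1
  have hopen : IsOpen {z : ℂ | 0 < z.im} := isOpen_upperHalfPlaneSet
  -- pointwise relation for the quotient
  have hM : ∀ z : ℂ, 0 < z.im → G0 z ≠ 0 →
      ∑ i ∈ Finset.range (n + 1), c i (ofComplex z) * M z ^ i = 0 := by
    intro z hz hz0
    have h2 := congrFun hrel (ofComplex z)
    simp only [Finset.sum_apply, Pi.mul_apply, Pi.pow_apply, Pi.zero_apply] at h2
    have h3 : (G0 z) ^ n * ∑ i ∈ Finset.range (n + 1), c i (ofComplex z) * M z ^ i = 0 := by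
      rw [Finset.mul_sum, ← h2]
      apply Finset.sum_congr rfl
      intro i hi
      rw [Finset.mem_range] at hi
      have e1 : G0 z ^ n = G0 z ^ i * G0 z ^ (n - i) := by
        rw [← pow_add]; congr 1; omega
      have e2 : g0 (ofComplex z) = G0 z := rfl
      have e3 : g1 (ofComplex z) = G1 z := rfl
      rw [e1, e2, e3]
      simp only [M]
      rw [div_pow]
      have : G0 z ^ i ≠ 0 := pow_ne_zero _ hz0
      field_simp
    exact (mul_eq_zero.mp h3).resolve_left (pow_ne_zero _ hz0)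
  -- local structure
  have hloc : ∀ z0 : ℂ, 0 < z0.im → ∃ s ∈ 𝓝 z0, IsOpen s ∧ s ⊆ {z : ℂ | 0 < z.im} ∧
      DifferentiableOn ℂ Ft s ∧ ∀ z ∈ s, z ≠ z0 → Ft z = M z ∧ G0 z ≠ 0 := by
    intro z0 hz0
    have hne := eventually_ne h0 hg0 hz0
    rw [eventually_nhdsWithin_iff] at hne
    -- bound for coefficients near z0
    have hcont : ∀ i, ContinuousAt (fun z : ℂ => ‖c i (ofComplex z)‖) z0 := by
      intro i
      have := ((UpperHalfPlane.mdifferentiable_iff.mp (hc i)).differentiableAt
        (hopen.mem_nhds hz0)).continuousAt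
      exact this.norm
    let B : ℝ := ∑ i ∈ Finset.range (n + 1), (‖c i (ofComplex z0)‖ + 1)
    have hbd : ∀ᶠ z in 𝓝 z0, ∀ i ∈ Finset.range (n + 1), ‖c i (ofComplex z)‖ < B := by
      rw [Filter.eventually_all_finset]
      intro i hi
      apply (hcont i).eventually_lt continuousAt_const
      calc ‖c i (ofComplex z0)‖ < ‖c i (ofComplex z0)‖ + 1 := by linarith
        _ ≤ B := by
          apply Finset.single_le_sum (f := fun i => ‖c i (ofComplex z0)‖ + 1) _ hi
          intro j _
          positivity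
    have hall := hne.and (hbd.and (hopen.mem_nhds hz0 : ∀ᶠ z in 𝓝 z0, 0 < z.im))
    obtain ⟨s, hs, hsopen, hzs⟩ := eventually_nhds_iff.mp hall
    have hsU : s ⊆ {z : ℂ | 0 < z.im} := fun z hz => (hs z hz).2.2
    have hsne : ∀ z ∈ s, z ≠ z0 → G0 z ≠ 0 := fun z hz hzz => (hs z hz).1 hzz
    have hdM : ∀ z ∈ s, z ≠ z0 → DifferentiableAt ℂ M z := by
      intro z hz hzz
      exact (d1.differentiableAt (hopen.mem_nhds (hsU hz))).div
        (d0.differentiableAt (hopen.mem_nhds (hsU hz))) (hsne z hz hzz)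
    have hupd := Complex.differentiableOn_update_limUnder_of_bddAbove (f := M) (s := s) (c := z0)
      (hsopen.mem_nhds hzs)
      (fun z hz => (hdM z hz.1 hz.2).differentiableWithinAt) (by
        refine ⟨max 1 (n * B), ?_⟩
        rintro _ ⟨z, hz, rfl⟩
        apply root_bound (fun i => c i (ofComplex z)) (M z)
        · simp [hcn]
        · exact hM z (hsU hz.1) (hsne z hz.1 hz.2)
        · intro i hi
          exact ((hs z hz.1).2.1 i (Finset.mem_range.mpr (by omega))).le)
    have hFtM : ∀ z ∈ s, z ≠ z0 → Ft z = M z := by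
      intro z hz hzz
      exact ((hdM z hz hzz).continuousAt.tendsto.mono_left nhdsWithin_le_nhds).limUnder_eq
    have heq : ∀ z ∈ s, Ft z = Function.update M z0 (limUnder (𝓝[≠] z0) M) z := by
      intro z hz
      by_cases hzz : z = z0
      · subst hzz; simp [Ft]
      · rw [Function.update_of_ne hzz, hFtM z hz hzz]
    exact ⟨s, hsopen.mem_nhds hzs, hsopen, hsU, hupd.congr heq,
      fun z hz hzz => ⟨hFtM z hz hzz, hsne z hz hzz⟩⟩
  have hdiff : DifferentiableOn ℂ Ft {z | 0 < z.im} := by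
    intro z0 hz0
    obtain ⟨s, hs, -, -, hds, -⟩ := hloc z0 hz0
    exact (hds.differentiableAt hs).differentiableWithinAt
  let F : ℍ → ℂ := fun τ => Ft τ
  have hF : MDiff F := by
    rw [UpperHalfPlane.mdifferentiable_iff]
    apply hdiff.congr
    intro z hz
    simp [F, ofComplex_apply_of_im_pos hz]
  have hFg : F * g0 = g1 := by
    -- `(F g0 - g1)` vanishes frequently near any point
    have hz : F * g0 - g1 = 0 := by
      have hmd : MDiff (F * g0 - g1) := (hF.mul h0).sub h1
      apply UpperHalfPlane.eq_zero_of_frequently hmd (τ := UpperHalfPlane.I)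
      apply Filter.Eventually.frequently
      obtain ⟨s, hs, -, -, -, hsM⟩ := hloc (UpperHalfPlane.I : ℂ) UpperHalfPlane.I.2
      have hc : Tendsto (fun w : ℍ => (w : ℂ)) (𝓝 UpperHalfPlane.I) (𝓝 (UpperHalfPlane.I : ℂ)) :=
        UpperHalfPlane.continuous_coe.tendsto _
      rw [eventually_nhdsWithin_iff]
      filter_upwards [hc.eventually_mem hs] with w hw hwI
      have hw' : (w : ℂ) ≠ (UpperHalfPlane.I : ℂ) := fun h => hwI (UpperHalfPlane.ext h)
      obtain ⟨e1, e2⟩ := hsM w hw hw'
      have e3 : G0 (w : ℂ) = g0 w := by simp [G0]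
      have e4 : G1 (w : ℂ) = g1 w := by simp [G1]
      simp only [Pi.sub_apply, Pi.mul_apply, F, e1, M, e3, e4]
      rw [e3] at e2
      field_simp
      ring
    exact sub_eq_zero.mp hz
  refine ⟨F, hF, hFg, ?_⟩
  have hpow : g0 ^ n * ∑ i ∈ Finset.range (n + 1), c i * F ^ i = 0 := by
    rw [Finset.mul_sum, ← hrel]
    apply Finset.sum_congr rfl
    intro i hi
    rw [Finset.mem_range] at hi
    have e1 : g0 ^ n = g0 ^ i * g0 ^ (n - i) := by
      rw [← pow_add]; congr 1; omega
    rw [e1, ← hFg, mul_pow]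
    ring
  have hmd : MDiff (∑ i ∈ Finset.range (n + 1), c i * F ^ i) := by
    apply MDifferentiable.sum
    intro i _
    exact (hc i).mul (hF.pow i)
  have h0n : MDiff (g0 ^ n) := h0.pow n
  rcases (UpperHalfPlane.mul_eq_zero_iff h0n hmd).mp hpow with h | h
  · exfalso
    apply hg0
    ext τ
    have := congrFun h τ
    simp only [Pi.pow_apply, Pi.zero_apply] at this
    exact eq_zero_of_pow_eq_zero this
  · exact h

end

end Fermat.Agent.IntStr
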