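import Mathlib
import Fermat.Agent.IntStr.Quotient

set_option autoImplicit false

/-!
# Conjugates of modular forms under ring endomorphisms of `ℂ`
-/

open UpperHalfPlane ModularForm CongruenceSubgroup Matrix.SpecialLinearGroup Filter
open scoped MatrixGroups Manifold Topology

namespace Fermat.Agent.IntStr

noncomputable section

theorem map_intPS (σ : ℂ →+* ℂ) {φ : PowerSeries ℂ} (h : φ ∈ intPS) : φ.map σ = φ := by
  rw [mem_intPS] at h
  ext n
  obtain ⟨m, hm⟩ := h n
  rw [PowerSeries.coeff_map, hm, map_intCast]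

theorem qE_mul {f g : ℍ → ℂ} (hf : f ∈ perSub) (hg : g ∈ perSub) :
    qExpansion 1 (f * g) = qExpansion 1 f * qExpansion 1 g :=
  map_mul qE (⟨f, hf⟩ : perSub) ⟨g, hg⟩

theorem qE_add {f g : ℍ → ℂ} (hf : f ∈ perSub) (hg : g ∈ perSub) :
    qExpansion 1 (f + g) = qExpansion 1 f + qExpansion 1 g :=
  map_add qE (⟨f, hf⟩ : perSub) ⟨g, hg⟩

theorem qE_smul {f : ℍ → ℂ} (hf : f ∈ perSub) (c : ℂ) :
    qExpansion 1 (c • f) = c • qExpansion 1 f :=
  map_smul qE c (⟨f, hf⟩ : perSub)

theorem qE_pow {f : ℍ → ℂ} (hf : f ∈ perSub) (n : ℕ) :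
    qExpansion 1 (f ^ n) = qExpansion 1 f ^ n :=
  map_pow qE (⟨f, hf⟩ : perSub) n

theorem qE_sum {ι : Type*} (s : Finset ι) {F : ι → ℍ → ℂ} (hF : ∀ i ∈ s, F i ∈ perSub) :
    qExpansion 1 (∑ i ∈ s, F i) = ∑ i ∈ s, qExpansion 1 (F i) := by
  classical
  induction s using Finset.induction_on with
  | empty => simpa using qExpansion_zero 1
  | insert i s hi ih =>
    rw [Finset.sum_insert hi, Finset.sum_insert hi,
      qE_add (hF i (Finset.mem_insert_self i s))
        (sum_mem fun j hj => hF j (Finset.mem_insert_of_mem hj)),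
      ih fun j hj => hF j (Finset.mem_insert_of_mem hj)]

theorem qE_inj {f g : ℍ → ℂ} (hf : f ∈ perSub) (hg : g ∈ perSub)
    (h : qExpansion 1 f = qExpansion 1 g) : f = g := by
  have := qE_injective (a₁ := ⟨f, hf⟩) (a₂ := ⟨g, hg⟩) h
  exact congrArg Subtype.val this

theorem map_smul_ps (σ : ℂ →+* ℂ) (c : ℂ) (φ : PowerSeries ℂ) :
    (c • φ).map σ = σ c • φ.map σ := by
  ext n
  simp

/-- Level one forms are stable under `σ`. -/
theorem exists_conj_one {k : ℤ} {g : ℍ → ℂ} (hg : IsForm 1 k g) (σ : ℂ →+* ℂ) :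
    ∃ g' : ℍ → ℂ, IsForm 1 k g' ∧ qExpansion 1 g' = (qExpansion 1 g).map σ := by
  have h := levelOne_span hg
  have key : ∀ x ∈ intSpan k, IsForm 1 k x ∧
      ∃ g' : ℍ → ℂ, IsForm 1 k g' ∧ qExpansion 1 g' = (qExpansion 1 x).map σ := by
    intro x hx
    refine Submodule.span_induction (p := fun x _ => IsForm 1 k x ∧
      ∃ g' : ℍ → ℂ, IsForm 1 k g' ∧ qExpansion 1 g' = (qExpansion 1 x).map σ) ?_ ?_ ?_ ?_ hx
    · rintro y ⟨hy, hyi⟩
      exact ⟨hy, y, hy, (map_intPS σ ((isInt_iff y).mp hyi)).symm⟩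
    · exact ⟨IsForm.zero, 0, IsForm.zero, by rw [qExpansion_zero, map_zero]⟩
    · rintro x y _ _ ⟨hx, x', hx', hxx⟩ ⟨hy, y', hy', hyy⟩
      exact ⟨hx.add hy, x' + y', hx'.add hy', by
        rw [qE_add hx'.mem_perSub hy'.mem_perSub, qE_add hx.mem_perSub hy.mem_perSub, map_add,
          hxx, hyy]⟩
    · rintro a x _ ⟨hx, x', hx', hxx⟩
      exact ⟨hx.smul a, σ a • x', hx'.smul _, by
        rw [qE_smul hx'.mem_perSub, qE_smul hx.mem_perSub, map_smul_ps, hxx]⟩
  exact (key g h).2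

variable {N : ℕ}

/-- Combination of level one forms with powers of an integral form. -/
theorem exists_conj_comb {w m : ℤ} {h : ℍ → ℂ} (hh : IsForm N w h) (hhi : IsInt h)
    (σ : ℂ →+* ℂ) (n : ℕ) (G : ℕ → ℍ → ℂ) (hG : ∀ i < n, IsForm 1 (m - w * i) (G i)) :
    IsForm N m (∑ i ∈ Finset.range n, G i * h ^ i) ∧
    ∃ F : ℍ → ℂ, IsForm N m F ∧
      qExpansion 1 F = (qExpansion 1 (∑ i ∈ Finset.range n, G i * h ^ i)).map σ := by
  have hGf : ∀ i < n, IsForm N m (G i * h ^ i) := fun i hi =>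
    ((hG i hi).of_one.mul (hh.pow i)).cast (by ring)
  refine ⟨IsForm.sum _ _ fun i hi => hGf i (Finset.mem_range.mp hi), ?_⟩
  have hG' : ∀ i : ℕ, ∃ g' : ℍ → ℂ, i < n → IsForm 1 (m - w * i) g' ∧
      qExpansion 1 g' = (qExpansion 1 (G i)).map σ := by
    intro i
    by_cases hi : i < n
    · obtain ⟨g', h1, h2⟩ := exists_conj_one (hG i hi) σ
      exact ⟨g', fun _ => ⟨h1, h2⟩⟩
    · exact ⟨0, fun h => absurd h hi⟩
  choose G' hG' using hG'
  have hG'f : ∀ i < n, IsForm N m (G' i * h ^ i) := fun i hi =>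
    ((hG' i hi).1.of_one.mul (hh.pow i)).cast (by ring)
  refine ⟨∑ i ∈ Finset.range n, G' i * h ^ i,
    IsForm.sum _ _ fun i hi => hG'f i (Finset.mem_range.mp hi), ?_⟩
  rw [qE_sum _ fun i hi => (hG'f i (Finset.mem_range.mp hi)).mem_perSub,
    qE_sum _ fun i hi => (hGf i (Finset.mem_range.mp hi)).mem_perSub, map_sum]
  apply Finset.sum_congr rfl
  intro i hi
  rw [Finset.mem_range] at hi
  rw [qE_mul (hG' i hi).1.mem_perSub (hh.pow i).mem_perSub,
    qE_mul (hG i hi).mem_perSub (hh.pow i).mem_perSub, qE_pow hh.mem_perSub, map_mul, map_pow,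
    (hG' i hi).2, map_intPS σ ((isInt_iff h).mp hhi)]

theorem conj_zero_one (q : Coset N) : conj (N := N) 0 (1 : ℍ → ℂ) q = 1 := by
  rw [conj]; exact is_invariant_one _

variable [NeZero N]

theorem natDegree_interp_lt (u v : Coset N → ℍ → ℂ) :
    (interp u v).natDegree < Fintype.card (Coset N) := by
  have hpos := card_coset_pos (N := N)
  have h1 : (interp u v).natDegree ≤ Fintype.card (Coset N) - 1 := by
    apply Polynomial.natDegree_sum_le_of_forall_le
    intro q _
    refine le_trans Polynomial.natDegree_mul_le ?_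
    rw [Polynomial.natDegree_C, zero_add,
      Polynomial.natDegree_prod_of_monic _ _ (fun _ _ => Polynomial.monic_X_sub_C _)]
    simp
  omega

/-- `f * dif` as combination of level one forms and powers of `h`. -/
theorem mul_dif_eq {k w : ℤ} {f h : ℍ → ℂ} (hf : IsForm N k f) (hh : IsForm N w h) :
    f * dif (N := N) w h = ∑ i ∈ Finset.range (Fintype.card (Coset N)),
      (interp (conj (N := N) k f) (conj w h)).coeff i * h ^ i := by
  rw [← eval_interp hf hh, Polynomial.eval_eq_sum_range' (natDegree_interp_lt _ _)]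

theorem mul_dif_conj {k w : ℤ} {f h : ℍ → ℂ} (hf : IsForm N k f) (hh : IsForm N w h)
    (hhi : IsInt h) (σ : ℂ →+* ℂ) :
    IsForm N (k + w * ((Fintype.card (Coset N) : ℤ) - 1)) (f * dif (N := N) w h) ∧
    ∃ F : ℍ → ℂ, IsForm N (k + w * ((Fintype.card (Coset N) : ℤ) - 1)) F ∧
      qExpansion 1 F = (qExpansion 1 (f * dif (N := N) w h)).map σ := by
  have := exists_conj_comb (m := k + w * ((Fintype.card (Coset N) : ℤ) - 1)) hh hhi σ
    (Fintype.card (Coset N)) (fun i => (interp (conj (N := N) k f) (conj w h)).coeff i)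
    (fun i _ => (isForm_coeff_interp hf hh i).cast (by ring))
  rw [mul_dif_eq hf hh]
  exact this

theorem isForm_dif {w : ℤ} {h : ℍ → ℂ} (hh : IsForm N w h) (hhi : IsInt h) :
    IsForm N (w * ((Fintype.card (Coset N) : ℤ) - 1)) (dif (N := N) w h) := by
  have := (mul_dif_conj (IsForm.one (N := N)) hh hhi (RingHom.id ℂ)).1
  rw [one_mul] at this
  exact this.cast (by ring)

theorem dif_hN_ne_zero : dif (N := N) 12 (hN N) ≠ 0 := by
  have hN0 : N ≠ 0 := NeZero.ne N
  rw [dif]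
  intro h
  rw [UpperHalfPlane.prod_eq_zero_iff] at h
  · obtain ⟨q, hq, hq0⟩ := h
    rw [Finset.mem_erase] at hq
    apply hq.1
    rw [sub_eq_zero] at hq0
    induction q using QuotientGroup.induction_on with
    | H g =>
      rw [conj_mk (isForm_hN hN0)] at hq0
      have := gamma0_of_slash_hN hN0 hq0.symm
      rw [QuotientGroup.eq]
      simpa using this
  · intro q _
    exact (isForm_hN hN0).holo.sub (conj_mem_bddSub (isForm_hN hN0) q).1

/-- monic relation -/
theorem chr_relation {k : ℤ} {f : ℍ → ℂ} (hf : IsForm N k f) :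
    ∑ i ∈ Finset.range (Fintype.card (Coset N) + 1),
      (chr (conj (N := N) k f)).coeff i * f ^ i = 0 := by
  have h1 := eval_chr hf
  rw [Polynomial.eval_eq_sum_range, natDegree_chr] at h1
  exact h1

theorem chr_coeff_card (v : Coset N → ℍ → ℂ) :
    (chr v).coeff (Fintype.card (Coset N)) = 1 := by
  have := monic_chr v
  rw [Polynomial.Monic, Polynomial.leadingCoeff, natDegree_chr] at this
  exact this

/-- Boundedness of roots of a monic equation with bounded coefficients. -/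
theorem bounded_of_relation {n : ℕ} {c : ℕ → ℍ → ℂ} {F : ℍ → ℂ}
    (hc : ∀ i < n, IsBoundedAtImInfty (c i)) (hcn : c n = 1)
    (h : ∀ τ, ∑ i ∈ Finset.range (n + 1), c i τ * F τ ^ i = 0) : IsBoundedAtImInfty F := by
  have hc' : ∀ i, ∃ (M A : ℝ), i < n → ∀ z : ℍ, A ≤ z.im → ‖c i z‖ ≤ M := by
    intro i
    by_cases hi : i < n
    · obtain ⟨M, A, h1⟩ := isBoundedAtImInfty_iff.mp (hc i hi)
      exact ⟨M, A, fun _ => h1⟩
    · exact ⟨0, 0, fun h => absurd h hi⟩
  choose M A hMA using hc'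
  rw [isBoundedAtImInfty_iff]
  refine ⟨max 1 (n * ∑ i ∈ Finset.range n, |M i|), ∑ i ∈ Finset.range n, |A i|, ?_⟩
  intro z hz
  apply root_bound (fun i => c i z) (F z) (by simp [hcn]) (h z)
  intro i hi
  have hA : A i ≤ z.im := by
    refine le_trans (le_trans (le_abs_self _) ?_) hz
    exact Finset.single_le_sum (f := fun i => |A i|) (fun j _ => abs_nonneg _)
      (Finset.mem_range.mpr hi)
  refine le_trans (hMA i hi z hA) (le_trans (le_abs_self _) ?_)
  exact Finset.single_le_sum (f := fun i => |M i|) (fun j _ => abs_nonneg _)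
      (Finset.mem_range.mpr hi)

/-- slash of an integral relation with level one coefficients -/
theorem slash_relation {k : ℤ} {n : ℕ} {c : ℕ → ℍ → ℂ} {F : ℍ → ℂ}
    (hc : ∀ i ≤ n, IsForm 1 (k * ((n : ℤ) - i)) (c i))
    (h : ∑ i ∈ Finset.range (n + 1), c i * F ^ i = 0) (γ : SL(2, ℤ)) (τ : ℍ) :
    ∑ i ∈ Finset.range (n + 1), c i τ * (F ∣[k] γ) τ ^ i = 0 := by
  have hd := denom_ne_zero (γ : GL (Fin 2) ℝ) τ
  have h1 := congrFun h (γ • τ)
  simp only [Finset.sum_apply, Pi.mul_apply, Pi.pow_apply, Pi.zero_apply] at h1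
  have h2 : denom (γ : GL (Fin 2) ℝ) τ ^ (k * n) *
      ∑ i ∈ Finset.range (n + 1), c i τ * (F ∣[k] γ) τ ^ i = 0 := by
    rw [Finset.mul_sum, ← h1]
    apply Finset.sum_congr rfl
    intro i hi
    rw [Finset.mem_range] at hi
    have hci : c i (γ • τ) = denom (γ : GL (Fin 2) ℝ) τ ^ (k * ((n : ℤ) - i)) * c i τ := by
      have h3 := congrFun ((hc i (by omega)).slash γ
        (by rw [Gamma0_mem]; exact Subsingleton.elim _ _)) τ
      rw [SL_slash_apply] at h3
      rw [← h3, mul_comm (c i (γ • τ)), ← mul_assoc, ← zpow_add₀ hd, add_neg_cancel, zpow_zero,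
        one_mul]
    have hF : F (γ • τ) = denom (γ : GL (Fin 2) ℝ) τ ^ k * (F ∣[k] γ) τ := by
      rw [SL_slash_apply, mul_comm (F (γ • τ)), ← mul_assoc, ← zpow_add₀ hd, add_neg_cancel,
        zpow_zero, one_mul]
    have hpow : (denom (γ : GL (Fin 2) ℝ) τ ^ k) ^ i = denom (γ : GL (Fin 2) ℝ) τ ^ (k * (i : ℤ)) := by
      rw [zpow_mul, zpow_natCast]
    rw [hci, hF, mul_pow, hpow]
    have : denom (γ : GL (Fin 2) ℝ) τ ^ (k * n) =
        denom (γ : GL (Fin 2) ℝ) τ ^ (k * ((n : ℤ) - i)) *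
          denom (γ : GL (Fin 2) ℝ) τ ^ (k * (i : ℤ)) := by
      rw [← zpow_add₀ hd]; congr 1; ring
    rw [this]
    ring
  exact (mul_eq_zero.mp h2).resolve_left (zpow_ne_zero _ hd)

/-- **Main theorem of descent**: forms of level `Γ₀(N)` are stable under `σ`, and the conjugate
satisfies the conjugate monic relation. -/
theorem exists_conj_form {k : ℤ} {f : ℍ → ℂ} (hf : IsForm N k f) (σ : ℂ →+* ℂ) :
    ∃ F : ℍ → ℂ, IsForm N k F ∧ qExpansion 1 F = (qExpansion 1 f).map σ ∧
      ∃ c : ℕ → ℍ → ℂ, c (Fintype.card (Coset N)) = 1 ∧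
        (∀ i ≤ Fintype.card (Coset N),
          IsForm 1 (k * ((Fintype.card (Coset N) : ℤ) - i)) (c i) ∧
          qExpansion 1 (c i) = (qExpansion 1 ((chr (conj (N := N) k f)).coeff i)).map σ) ∧
        ∑ i ∈ Finset.range (Fintype.card (Coset N) + 1), c i * F ^ i = 0 := by
  have hN0 : N ≠ 0 := NeZero.ne N
  have hh := isForm_hN hN0
  have hhi := isInt_hN hN0
  set n := Fintype.card (Coset N) with hn
  set D : ℍ → ℂ := dif (N := N) 12 (hN N) with hD
  have hDform : IsForm N (12 * ((n : ℤ) - 1)) D := isForm_dif hh hhi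
  have hD0 : D ≠ 0 := dif_hN_ne_zero
  -- conjugates of D and fD
  obtain ⟨-, g0, hg0, hq0⟩ := mul_dif_conj (IsForm.one (N := N)) hh hhi σ
  rw [one_mul] at hq0
  obtain ⟨hfD, g1, hg1, hq1⟩ := mul_dif_conj hf hh hhi σ
  rw [← hD] at hq0 hq1 hfD
  have hg0ne : g0 ≠ 0 := by
    intro h
    apply hD0
    apply qE_inj hDform.mem_perSub (zero_mem _)
    rw [h, qExpansion_zero] at hq0
    rw [qExpansion_zero]
    ext i
    have h1 := congrArg (fun φ => PowerSeries.coeff i φ) hq0
    simp only [PowerSeries.coeff_map, map_zero] at h1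
    rw [map_zero]
    exact (map_eq_zero σ).mp h1.symm
  -- conjugates of the coefficients
  have hc' : ∀ i : ℕ, ∃ c' : ℍ → ℂ, (i ≤ n → IsForm 1 (k * ((n : ℤ) - i)) c' ∧
      qExpansion 1 c' = (qExpansion 1 ((chr (conj (N := N) k f)).coeff i)).map σ) ∧
      (¬ i ≤ n → c' = 0) := by
    intro i
    by_cases hi : i ≤ n
    · obtain ⟨c', h1, h2⟩ := exists_conj_one (isForm_coeff_chr hf i) σ
      exact ⟨c', fun _ => ⟨h1, h2⟩, fun h => absurd hi h⟩
    · exact ⟨0, fun h => absurd h hi, fun _ => rfl⟩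
  choose c hc hcz using hc'
  have hcn : c n = 1 := by
    apply qE_inj (hc n le_rfl).1.mem_perSub (one_mem _)
    rw [(hc n le_rfl).2, hn, chr_coeff_card, qExpansion_one, map_one]
  have hcM : ∀ i, MDiff (c i) := by
    intro i
    by_cases hi : i ≤ n
    · exact (hc i hi).1.holo
    · rw [hcz i hi]; exact mdifferentiable_const
  -- the relation
  have hrel : ∑ i ∈ Finset.range (n + 1), c i * g1 ^ i * g0 ^ (n - i) = 0 := by
    have hp : ∀ i ∈ Finset.range (n + 1), c i * g1 ^ i * g0 ^ (n - i) ∈ perSub := by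
      intro i hi
      rw [Finset.mem_range] at hi
      exact mul_mem (mul_mem (hc i (by omega)).1.mem_perSub (pow_mem hg1.mem_perSub _))
        (pow_mem hg0.mem_perSub _)
    apply qE_inj (sum_mem hp) (zero_mem _)
    rw [qE_sum _ hp, qExpansion_zero]
    have h1 : ∀ i ∈ Finset.range (n + 1), qExpansion 1 (c i * g1 ^ i * g0 ^ (n - i)) =
        (qExpansion 1 ((chr (conj (N := N) k f)).coeff i * f ^ i)).map σ *
          ((qExpansion 1 D).map σ) ^ n := by
      intro i hi
      rw [Finset.mem_range] at hi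
      have hci := hc i (by omega)
      rw [qE_mul (mul_mem hci.1.mem_perSub (pow_mem hg1.mem_perSub _))
        (pow_mem hg0.mem_perSub _), qE_mul hci.1.mem_perSub (pow_mem hg1.mem_perSub _),
        qE_pow hg1.mem_perSub, qE_pow hg0.mem_perSub, hci.2, hq1, hq0,
        qE_mul hf.mem_perSub hDform.mem_perSub,
        qE_mul (isForm_coeff_chr hf i).mem_perSub (pow_mem hf.mem_perSub _),
        qE_pow hf.mem_perSub, map_mul, map_mul, map_pow, mul_pow]
      have e1 : (PowerSeries.map σ (qExpansion 1 D)) ^ n =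
          (PowerSeries.map σ (qExpansion 1 D)) ^ i *
            (PowerSeries.map σ (qExpansion 1 D)) ^ (n - i) := by
        rw [← pow_add]; congr 1; omega
      rw [e1]
      ring
    rw [Finset.sum_congr rfl h1, ← Finset.sum_mul, ← map_sum, ← qE_sum, chr_relation hf,
      qExpansion_zero, map_zero, zero_mul]
    intro i _
    exact mul_mem (isForm_coeff_chr hf i).mem_perSub (pow_mem hf.mem_perSub _)
  obtain ⟨F, hF, hFg, hFrel⟩ := exists_quotient c hcM hcn hg0.holo hg1.holo hg0ne hrel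
  -- F is a form
  have hFslash : ∀ γ : SL(2, ℤ), γ ∈ Gamma0 N → F ∣[k] γ = F := by
    intro γ hγ
    have h1 : (F ∣[k] γ) * g0 = F * g0 := by
      have h2 := mul_slash_SL2 k (0 + 12 * ((n : ℤ) - 1)) γ F g0
      rw [hg0.slash γ hγ, hFg, hg1.cast (show _ = k + (0 + 12 * ((n : ℤ) - 1)) by ring)
        |>.slash γ hγ] at h2
      rw [← h2, hFg]
    have h3 : (F ∣[k] γ - F) * g0 = 0 := by rw [sub_mul, h1, sub_self]
    rcases (UpperHalfPlane.mul_eq_zero_iff ((hF.slash k _).sub hF) hg0.holo).mp h3 with h | h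
    · exact sub_eq_zero.mp h
    · exact absurd h hg0ne
  have hFform : IsForm N k F := by
    refine ⟨hFslash, hF, fun γ => ?_⟩
    apply bounded_of_relation (n := n) (c := c) _ hcn
      (slash_relation (k := k) (fun i hi => (hc i hi).1) hFrel γ)
    intro i hi
    simpa using (hc i hi.le).1.bdd 1
  refine ⟨F, hFform, ?_, c, hcn, hc, hFrel⟩
  -- q-expansion
  have h1 := qE_mul hFform.mem_perSub hg0.mem_perSub
  rw [hFg, hq1, hq0, qE_mul hf.mem_perSub hDform.mem_perSub, map_mul] at h1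
  have h2 : (PowerSeries.map σ) (qExpansion 1 D) ≠ 0 := by
    rw [← hq0]
    intro h
    apply hg0ne
    apply qE_inj hg0.mem_perSub (zero_mem _)
    rw [h, qExpansion_zero]
  exact (mul_right_cancel₀ h2 h1).symm

end

end Fermat.Agent.IntStr
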