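import Mathlib
import Fermat.Agent.IntStr.Descent

set_option autoImplicit false

/-!
# Cuspidality is preserved under conjugation
-/

open UpperHalfPlane ModularForm CongruenceSubgroup Matrix.SpecialLinearGroup Filter
open scoped MatrixGroups Manifold Topology

namespace Fermat.Agent.IntStr

noncomputable section

/-- cuspidality as a predicate -/
def IsCuspF (k : ℤ) (f : ℍ → ℂ) : Prop := ∀ γ : SL(2, ℤ), IsZeroAtImInfty (f ∣[k] γ)

theorem zero_mul_bdd {f g : ℍ → ℂ} (hf : IsZeroAtImInfty f) (hg : IsBoundedAtImInfty g) :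
    IsZeroAtImInfty (f * g) := by
  rw [isBoundedAtImInfty_iff] at hg
  obtain ⟨M, A, hM⟩ := hg
  rw [isZeroAtImInfty_iff] at hf ⊢
  intro ε hε
  obtain ⟨B, hB⟩ := hf (ε / (|M| + 1)) (by positivity)
  refine ⟨max A B, fun z hz => ?_⟩
  have h1 := hM z (le_trans (le_max_left _ _) hz)
  have h2 := hB z (le_trans (le_max_right _ _) hz)
  rw [Pi.mul_apply, norm_mul]
  have h3 : ‖g z‖ ≤ |M| + 1 := le_trans h1 (le_trans (le_abs_self M) (by linarith))
  calc ‖f z‖ * ‖g z‖ ≤ ε / (|M| + 1) * (|M| + 1) := by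
        apply mul_le_mul h2 h3 (norm_nonneg _) (by positivity)
    _ = ε := by field_simp

/-- the ideal of functions vanishing at `i∞` -/
def zeroIdeal : Ideal bddSub.toSubring where
  carrier := {f | IsZeroAtImInfty (f : ℍ → ℂ)}
  add_mem' {f g} hf hg := by
    have := Filter.ZeroAtFilter.add hf hg
    exact this
  zero_mem' := by
    show IsZeroAtImInfty (0 : ℍ → ℂ)
    exact tendsto_const_nhds
  smul_mem' c f hf := by
    show IsZeroAtImInfty ((c : ℍ → ℂ) * (f : ℍ → ℂ))
    rw [mul_comm]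
    exact zero_mul_bdd hf c.2.2

theorem mem_zeroIdeal {f : bddSub.toSubring} :
    f ∈ zeroIdeal ↔ IsZeroAtImInfty (f : ℍ → ℂ) := Iff.rfl

variable {N : ℕ} [NeZero N]

theorem coeff_chr_zero {v : Coset N → ℍ → ℂ} (hv : ∀ q, v q ∈ bddSub)
    (hv0 : ∀ q, IsZeroAtImInfty (v q)) (i : ℕ) (hi : i < Fintype.card (Coset N)) :
    IsZeroAtImInfty ((chr v).coeff i) := by
  let V : Coset N → bddSub.toSubring := fun q => ⟨v q, hv q⟩
  let P : Polynomial bddSub.toSubring := ∏ q, (Polynomial.X - Polynomial.C (V q))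
  have hP : P.map bddSub.toSubring.subtype = chr v := by
    simp only [P, chr, Polynomial.map_prod, Polynomial.map_sub, Polynomial.map_X,
      Polynomial.map_C]
    rfl
  have hc : ((P.coeff i : bddSub.toSubring) : ℍ → ℂ) = (chr v).coeff i := by
    rw [← hP, Polynomial.coeff_map]; rfl
  rw [← hc, ← mem_zeroIdeal, ← Ideal.Quotient.eq_zero_iff_mem]
  have h1 : P.map (Ideal.Quotient.mk zeroIdeal) = Polynomial.X ^ (Fintype.card (Coset N)) := by
    simp only [P, Polynomial.map_prod, Polynomial.map_sub, Polynomial.map_X, Polynomial.map_C]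
    have h2 : ∀ q, (Ideal.Quotient.mk zeroIdeal) (V q) = 0 := fun q =>
      Ideal.Quotient.eq_zero_iff_mem.mpr (hv0 q)
    simp only [h2, map_zero, sub_zero]
    rw [Finset.prod_const, Finset.card_univ]
  have h3 := congrArg (fun p => Polynomial.coeff p i) h1
  simp only [Polynomial.coeff_map, Polynomial.coeff_X_pow] at h3
  rw [h3, if_neg (by omega)]

theorem isZero_iff_coeff {f : ℍ → ℂ} (hf : f ∈ perSub) :
    IsZeroAtImInfty f ↔ (qExpansion 1 f).coeff 0 = 0 := by
  have han := analyticAt_of_perSub hf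
  have h0 : (qExpansion 1 f).coeff 0 = cuspFunction 1 f 0 := by
    rw [qExpansion_coeff]; simp
  constructor
  · intro h
    rw [h0]
    exact h.cuspFunction_apply_zero one_pos
  · intro h
    rw [h0] at h
    have h1 : Tendsto (fun τ : ℍ => cuspFunction 1 f (Function.Periodic.qParam 1 τ))
        atImInfty (𝓝 (cuspFunction 1 f 0)) :=
      han.continuousAt.tendsto.comp (qParam_tendsto_atImInfty one_pos)
    rw [h] at h1
    have h2 : (fun τ : ℍ => cuspFunction 1 f (Function.Periodic.qParam 1 τ)) = f := by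
      ext τ
      exact eq_cuspFunction τ one_ne_zero (by simpa using hf.1)
    rwa [h2] at h1

theorem zero_of_relation {n : ℕ} (hn : 0 < n) {c : ℕ → ℍ → ℂ} {F : ℍ → ℂ}
    (hc : ∀ i < n, IsZeroAtImInfty (c i)) (hcn : c n = 1) (hF : IsBoundedAtImInfty F)
    (h : ∀ τ, ∑ i ∈ Finset.range (n + 1), c i τ * F τ ^ i = 0) : IsZeroAtImInfty F := by
  have h1 : IsZeroAtImInfty (-∑ i ∈ Finset.range n, c i * F ^ i) := by
    have h2 : ∀ i ∈ Finset.range n, Tendsto (c i * F ^ i) atImInfty (𝓝 0) := by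
      intro i hi
      apply zero_mul_bdd (hc i (Finset.mem_range.mp hi))
      have h4 : ∀ j : ℕ, IsBoundedAtImInfty (F ^ j) := by
        intro j
        induction j with
        | zero => rw [pow_zero]; exact Filter.const_boundedAtFilter _ (1 : ℂ)
        | succ j ih => rw [pow_succ]; exact ih.mul hF
      exact h4 i
    have h3 := (tendsto_finsetSum (Finset.range n) h2).neg
    simp only [Finset.sum_const_zero, neg_zero] at h3
    have h5 : (fun x => -∑ i ∈ Finset.range n, (c i * F ^ i) x) =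
        -∑ i ∈ Finset.range n, c i * F ^ i := by
      ext x; simp
    rw [h5] at h3
    exact h3
  have h6 : F ^ n = -∑ i ∈ Finset.range n, c i * F ^ i := by
    ext τ
    have h7 := h τ
    rw [Finset.sum_range_succ, hcn] at h7
    simp only [Pi.one_apply, one_mul] at h7
    simp only [Pi.pow_apply, Pi.neg_apply, Finset.sum_apply, Pi.mul_apply]
    rw [eq_neg_iff_add_eq_zero, add_comm]
    exact h7
  rw [← h6] at h1
  have h8 : Tendsto (fun τ => ‖F τ‖ ^ n) atImInfty (𝓝 0) := by
    have := (tendsto_zero_iff_norm_tendsto_zero.mp h1)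
    simpa using this
  have h9 : Tendsto (fun τ => (‖F τ‖ ^ n) ^ ((n : ℝ)⁻¹)) atImInfty (𝓝 (0 ^ ((n : ℝ)⁻¹))) :=
    h8.rpow_const (Or.inr (by positivity))
  rw [Real.zero_rpow (by positivity)] at h9
  apply tendsto_zero_iff_norm_tendsto_zero.mpr
  convert h9 using 2 with τ
  rw [Real.pow_rpow_inv_natCast (norm_nonneg _) hn.ne']

/-- Cusp forms are stable under conjugation. -/
theorem exists_conj_cusp {k : ℤ} {f : ℍ → ℂ} (hf : IsForm N k f) (hf0 : IsCuspF k f)
    (σ : ℂ →+* ℂ) :
    ∃ F : ℍ → ℂ, IsForm N k F ∧ IsCuspF k F ∧ qExpansion 1 F = (qExpansion 1 f).map σ := by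
  obtain ⟨F, hF, hFq, c, hcn, hc, hrel⟩ := exists_conj_form hf σ
  refine ⟨F, hF, fun γ => ?_, hFq⟩
  apply zero_of_relation (card_coset_pos (N := N)) _ hcn (hF.bdd γ)
    (slash_relation (fun i hi => (hc i hi).1) hrel γ)
  intro i hi
  rw [isZero_iff_coeff (hc i hi.le).1.mem_perSub, (hc i hi.le).2, PowerSeries.coeff_map]
  have h1 : IsZeroAtImInfty ((chr (conj (N := N) k f)).coeff i) :=
    coeff_chr_zero (fun q => conj_mem_bddSub hf q) (fun q => hf0 _) i hi
  rw [(isZero_iff_coeff (isForm_coeff_chr hf i).mem_perSub).mp h1, map_zero]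

end

end Fermat.Agent.IntStr
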