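import Mathlib

set_option autoImplicit false

/-!
# The only complex numbers fixed by all ring endomorphisms of `ℂ` are the rationals
-/

namespace Fermat.Agent.IntStr

theorem exists_ringHom_extension {R S M : Type*} [CommRing R] [IsDomain R] [Field S] [Field M]
    [IsAlgClosed M] [Algebra R S] [FaithfulSMul R S] [Algebra.IsAlgebraic R S]
    (j : R →+* M) (hj : Function.Injective j) : ∃ σ : S →+* M, ∀ r, σ (algebraMap R S r) = j r := by
  let : Algebra R M := j.toAlgebra
  have : FaithfulSMul R M := (faithfulSMul_iff_algebraMap_injective R M).mpr hj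
  let σ : S →ₐ[R] M := IsAlgClosed.lift
  exact ⟨σ.toRingHom, fun r => σ.commutes r⟩

theorem exists_moving_of_transcendental (z : ℂ) (hz : Transcendental ℚ z) :
    ∃ σ : ℂ →+* ℂ, σ z ≠ z := by
  have hind : AlgebraicIndepOn ℚ id ({z} : Set ℂ) := by
    have : AlgebraicIndependent ℚ (fun x : ({z} : Set ℂ) => (x : ℂ)) := by
      rw [algebraicIndependent_unique_type_iff]
      exact hz
    exact this
  obtain ⟨t, hzt, ht⟩ := exists_isTranscendenceBasis_superset hind
  have hx := ht.1
  have hy : AlgebraicIndependent ℚ fun i : t ↦ Polynomial.aeval (i : ℂ)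
      (Polynomial.X + Polynomial.C 1 : Polynomial ℚ) := by
    apply hx.polynomial_aeval_of_transcendental
    intro i
    apply Polynomial.transcendental
    · rw [Polynomial.natDegree_X_add_C]; norm_num
    · rw [Polynomial.leadingCoeff_X_add_C]; exact one_mem _
  have halg : Algebra.IsAlgebraic (Algebra.adjoin ℚ (Set.range (Subtype.val : t → ℂ))) ℂ :=
    ht.isAlgebraic
  let j : Algebra.adjoin ℚ (Set.range (Subtype.val : t → ℂ)) →ₐ[ℚ] ℂ :=
    (MvPolynomial.aeval (fun i : t ↦ Polynomial.aeval (i : ℂ)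
      (Polynomial.X + Polynomial.C 1 : Polynomial ℚ))).comp hx.aevalEquiv.symm.toAlgHom
  have hj : Function.Injective j := by
    apply Function.Injective.comp hy
    exact hx.aevalEquiv.symm.injective
  obtain ⟨σ, hσ⟩ := exists_ringHom_extension (S := ℂ) j.toRingHom hj
  refine ⟨σ, ?_⟩
  have hz' : z ∈ t := hzt rfl
  let zt : t := ⟨z, hz'⟩
  have h1 : algebraMap (Algebra.adjoin ℚ (Set.range (Subtype.val : t → ℂ))) ℂ
      (hx.aevalEquiv (MvPolynomial.X zt)) = z := by
    rw [AlgebraicIndependent.algebraMap_aevalEquiv, MvPolynomial.aeval_X]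
  have h2 := hσ (hx.aevalEquiv (MvPolynomial.X zt))
  rw [h1] at h2
  have h3 : j.toRingHom (hx.aevalEquiv (MvPolynomial.X zt)) = z + 1 := by
    show MvPolynomial.aeval _ (hx.aevalEquiv.symm (hx.aevalEquiv (MvPolynomial.X zt))) = _
    rw [AlgEquiv.symm_apply_apply, MvPolynomial.aeval_X]
    simp [zt]
  rw [h2, h3]
  simp

theorem exists_moving_of_algebraic (z : ℂ) (hz : IsAlgebraic ℚ z)
    (hzQ : z ∉ Set.range (algebraMap ℚ ℂ)) : ∃ σ : ℂ →+* ℂ, σ z ≠ z := by
  let F := algebraicClosure ℚ ℂ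
  have hzF : z ∈ F := mem_algebraicClosure_iff.mpr hz
  let z0 : F := ⟨z, hzF⟩
  have hcl : IsAlgClosure ℚ F := algebraicClosure.isAlgClosure ℚ ℂ
  have hgal : IsGalois ℚ F := IsAlgClosure.isGalois ℚ F
  have hz0 : z0 ∉ Set.range (algebraMap ℚ F) := by
    rintro ⟨r, hr⟩
    apply hzQ
    refine ⟨r, ?_⟩
    have := congrArg Subtype.val hr
    exact this
  obtain ⟨τ, hτ⟩ : ∃ τ : F ≃ₐ[ℚ] F, τ z0 ≠ z0 := by
    by_contra hcon
    push Not at hcon
    exact hz0 ((InfiniteGalois.mem_range_algebraMap_iff_fixed z0).mpr hcon)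
  obtain ⟨t, ht⟩ := exists_isTranscendenceBasis ℚ ℂ
  have ht' : IsTranscendenceBasis F (Subtype.val : t → ℂ) :=
    (Algebra.IsAlgebraic.isTranscendenceBasis_iff ℚ F).mp ht
  have hx := ht'.1
  have halg : Algebra.IsAlgebraic (Algebra.adjoin F (Set.range (Subtype.val : t → ℂ))) ℂ :=
    ht'.isAlgebraic
  let j : Algebra.adjoin F (Set.range (Subtype.val : t → ℂ)) →+* ℂ :=
    ((MvPolynomial.aeval (Subtype.val : t → ℂ)).toRingHom.comp
      (MvPolynomial.map τ.toRingEquiv.toRingHom)).comp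
        hx.aevalEquiv.symm.toRingEquiv.toRingHom
  have hj : Function.Injective j := by
    have h1 : Function.Injective (MvPolynomial.aeval (R := F) (Subtype.val : t → ℂ)) := hx
    have h2 : Function.Injective (MvPolynomial.map (σ := t) τ.toRingEquiv.toRingHom) :=
      MvPolynomial.map_injective _ τ.injective
    exact (h1.comp h2).comp hx.aevalEquiv.symm.injective
  obtain ⟨σ, hσ⟩ := exists_ringHom_extension (S := ℂ) j hj
  refine ⟨σ, ?_⟩
  have h1 : algebraMap (Algebra.adjoin F (Set.range (Subtype.val : t → ℂ))) ℂ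
      (hx.aevalEquiv (MvPolynomial.C z0)) = z := by
    rw [AlgebraicIndependent.algebraMap_aevalEquiv, MvPolynomial.aeval_C]
    rfl
  have h2 := hσ (hx.aevalEquiv (MvPolynomial.C z0))
  rw [h1] at h2
  have h3 : j (hx.aevalEquiv (MvPolynomial.C z0)) = (τ z0 : ℂ) := by
    show MvPolynomial.aeval _ (MvPolynomial.map τ.toRingEquiv.toRingHom
      (hx.aevalEquiv.symm (hx.aevalEquiv (MvPolynomial.C z0)))) = _
    rw [AlgEquiv.symm_apply_apply, MvPolynomial.map_C, MvPolynomial.aeval_C]
    rfl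
  rw [h2, h3]
  intro hcon
  apply hτ
  exact Subtype.ext hcon

/-- A complex number fixed by all ring endomorphisms is rational. -/
theorem rational_of_fixed (z : ℂ) (h : ∀ σ : ℂ →+* ℂ, σ z = z) : ∃ r : ℚ, (r : ℂ) = z := by
  by_cases hz : IsAlgebraic ℚ z
  · by_contra hcon
    obtain ⟨σ, hσ⟩ := exists_moving_of_algebraic z hz (by
      rintro ⟨r, hr⟩
      exact hcon ⟨r, by simpa using hr⟩)
    exact hσ (h σ)
  · obtain ⟨σ, hσ⟩ := exists_moving_of_transcendental z hz
    exact absurd (h σ) hσ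

end Fermat.Agent.IntStr
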