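import Mathlib
import Fermat.Agent.IntStr.Descent

set_option autoImplicit false

/-!
# Bounded denominators for forms with rational coefficients
-/

open UpperHalfPlane ModularForm CongruenceSubgroup Matrix.SpecialLinearGroup Filter
open scoped MatrixGroups Manifold Topology

namespace Fermat.Agent.IntStr

noncomputable section

/-- In an integrally closed domain, an integral relation between numerator and denominator
implies divisibility. -/
theorem dvd_of_relation {A : Type*} [CommRing A] [IsDomain A] [IsIntegrallyClosed A] {n : ℕ}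
    (a : ℕ → A) (han : a n = 1) {u v : A} (hv : v ≠ 0)
    (h : ∑ i ∈ Finset.range (n + 1), a i * u ^ i * v ^ (n - i) = 0) : v ∣ u := by
  let K := FractionRing A
  have hvK : algebraMap A K v ≠ 0 := by
    rw [Ne, map_eq_zero_iff _ (IsFractionRing.injective A K)]
    exact hv
  set y : K := algebraMap A K u / algebraMap A K v with hy
  have hyv : y * algebraMap A K v = algebraMap A K u := by
    rw [hy]; exact div_mul_cancel₀ _ hvK
  have hint : IsIntegral A y := by
    refine ⟨∑ i ∈ Finset.range (n + 1), Polynomial.C (a i) * Polynomial.X ^ i, ?_, ?_⟩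
    · rw [Finset.sum_range_succ, han, Polynomial.C_1, one_mul, add_comm]
      apply Polynomial.monic_X_pow_add
      rw [Finset.sum_range]
      exact Polynomial.degree_sum_fin_lt _
    · rw [Polynomial.eval₂_finsetSum]
      simp only [Polynomial.eval₂_mul, Polynomial.eval₂_C, Polynomial.eval₂_pow,
        Polynomial.eval₂_X]
      have h1 : (algebraMap A K v) ^ n *
          ∑ i ∈ Finset.range (n + 1), algebraMap A K (a i) * y ^ i = 0 := by
        have h2 := congrArg (algebraMap A K) h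
        rw [map_sum, map_zero] at h2
        rw [Finset.mul_sum, ← h2]
        apply Finset.sum_congr rfl
        intro i hi
        rw [Finset.mem_range] at hi
        have e1 : algebraMap A K v ^ n = algebraMap A K v ^ i * algebraMap A K v ^ (n - i) := by
          rw [← pow_add]; congr 1; omega
        rw [map_mul, map_mul, map_pow, map_pow, e1, ← hyv, mul_pow]
        ring
      exact (mul_eq_zero.mp h1).resolve_left (pow_ne_zero _ hvK)
  obtain ⟨z, hz⟩ := IsIntegrallyClosed.isIntegral_iff.mp hint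
  refine ⟨z, ?_⟩
  apply IsFractionRing.injective A K
  rw [map_mul, hz, mul_comm, hyv]

/-- Coefficientwise application of a linear functional. -/
def lam (l : ℂ →ₗ[ℚ] ℚ) : PowerSeries ℂ →ₗ[ℚ] PowerSeries ℚ where
  toFun φ := PowerSeries.mk fun n => l (φ.coeff n)
  map_add' φ ψ := by ext n; simp
  map_smul' c φ := by
    ext n
    simp only [PowerSeries.coeff_mk, PowerSeries.coeff_smul, RingHom.id_apply, smul_eq_mul]
    rw [map_rat_smul, smul_eq_mul]

@[simp] theorem coeff_lam (l : ℂ →ₗ[ℚ] ℚ) (φ : PowerSeries ℂ) (n : ℕ) :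
    (lam l φ).coeff n = l (φ.coeff n) := by
  simp [lam]

/-- embedding of rational power series -/
abbrev iQ : PowerSeries ℚ →+* PowerSeries ℂ := PowerSeries.map (algebraMap ℚ ℂ)

theorem lam_mul (l : ℂ →ₗ[ℚ] ℚ) (φ : PowerSeries ℂ) (ψ : PowerSeries ℚ) :
    lam l (φ * iQ ψ) = lam l φ * ψ := by
  ext n
  rw [coeff_lam, PowerSeries.coeff_mul, PowerSeries.coeff_mul, map_sum]
  apply Finset.sum_congr rfl
  rintro ⟨i, j⟩ _
  simp only [PowerSeries.coeff_map, coeff_lam]
  rw [mul_comm, ← Algebra.smul_def, map_smul, smul_eq_mul, mul_comm]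

/-- power series with bounded denominators -/
def BD : Subring (PowerSeries ℚ) where
  carrier := {φ | ∃ d : ℤ, d ≠ 0 ∧ ∀ n, ∃ m : ℤ, (d : ℚ) * φ.coeff n = m}
  mul_mem' := by
    rintro φ ψ ⟨d, hd, h⟩ ⟨e, he, h'⟩
    refine ⟨d * e, mul_ne_zero hd he, fun n => ?_⟩
    choose m hm using h
    choose m' hm' using h'
    refine ⟨∑ p ∈ Finset.HasAntidiagonal.antidiagonal n, m p.1 * m' p.2, ?_⟩
    rw [PowerSeries.coeff_mul, Finset.mul_sum]
    push_cast
    apply Finset.sum_congr rfl
    rintro ⟨i, j⟩ _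
    rw [← hm, ← hm']
    ring
  one_mem' := ⟨1, one_ne_zero, fun n => by
    rw [PowerSeries.coeff_one]
    split_ifs
    · exact ⟨1, by simp⟩
    · exact ⟨0, by simp⟩⟩
  add_mem' := by
    rintro φ ψ ⟨d, hd, h⟩ ⟨e, he, h'⟩
    refine ⟨d * e, mul_ne_zero hd he, fun n => ?_⟩
    obtain ⟨m, hm⟩ := h n
    obtain ⟨m', hm'⟩ := h' n
    refine ⟨e * m + d * m', ?_⟩
    rw [map_add]
    push_cast
    rw [← hm, ← hm']
    ring
  zero_mem' := ⟨1, one_ne_zero, fun n => ⟨0, by simp⟩⟩
  neg_mem' := by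
    rintro φ ⟨d, hd, h⟩
    refine ⟨d, hd, fun n => ?_⟩
    obtain ⟨m, hm⟩ := h n
    exact ⟨-m, by rw [map_neg, mul_neg, hm]; push_cast; ring⟩

/-- embedding of integral power series -/
abbrev iZ : PowerSeries ℤ →+* PowerSeries ℚ := PowerSeries.map (Int.castRingHom ℚ)

theorem iZ_injective : Function.Injective iZ := by
  intro a b h
  ext n
  have := congrArg (PowerSeries.coeff n) h
  simpa using this

theorem mem_BD_iff {φ : PowerSeries ℚ} : φ ∈ BD ↔
    ∃ d : ℤ, d ≠ 0 ∧ ∃ ψ : PowerSeries ℤ, iZ ψ = (PowerSeries.C (d : ℚ)) * φ := by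
  constructor
  · rintro ⟨d, hd, h⟩
    choose m hm using h
    refine ⟨d, hd, PowerSeries.mk m, ?_⟩
    ext n
    rw [PowerSeries.coeff_C_mul, hm]
    simp
  · rintro ⟨d, hd, ψ, hψ⟩
    refine ⟨d, hd, fun n => ⟨ψ.coeff n, ?_⟩⟩
    have := congrArg (PowerSeries.coeff n) hψ
    rw [PowerSeries.coeff_C_mul] at this
    rw [← this]
    simp

/-- `BD` is integrally closed in `ℚ⟦X⟧` for fractions. -/
theorem BD_integral {n : ℕ} (a : ℕ → PowerSeries ℚ) (han : a n = 1) (ha : ∀ i, a i ∈ BD)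
    {x v : PowerSeries ℚ} (hv : v ∈ BD) (hv0 : v ≠ 0) (hvx : v * x ∈ BD)
    (h : ∑ i ∈ Finset.range (n + 1), a i * x ^ i = 0) : x ∈ BD := by
  -- common denominators
  obtain ⟨d1, hd1, V, hV⟩ := mem_BD_iff.mp hv
  obtain ⟨d2, hd2, U, hU⟩ := mem_BD_iff.mp hvx
  have ha' : ∀ i, ∃ d : ℤ, d ≠ 0 ∧ ∃ ψ : PowerSeries ℤ,
      iZ ψ = (PowerSeries.C (d : ℚ)) * a i := fun i => mem_BD_iff.mp (ha i)
  choose d hd A hA using ha'
  set e : ℤ := ∏ i ∈ Finset.range n, d i with he
  have he0 : e ≠ 0 := Finset.prod_ne_zero_iff.mpr fun i _ => hd i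
  -- y = e x satisfies an integral equation over ℤ⟦X⟧
  have hA' : ∀ i, ∃ B : PowerSeries ℤ, i < n →
      iZ B = PowerSeries.C ((e : ℚ) ^ (n - i)) * a i := by
    intro i
    by_cases hi : i < n
    · obtain ⟨c, hc⟩ : d i ∣ e := Finset.dvd_prod_of_mem _ (Finset.mem_range.mpr hi)
      refine ⟨PowerSeries.C (c * e ^ (n - i - 1)) * A i, fun _ => ?_⟩
      rw [map_mul, hA, PowerSeries.map_C, ← mul_assoc, ← map_mul]
      congr 2
      have : n - i = (n - i - 1) + 1 := by omega
      conv_rhs => rw [this, pow_succ, hc]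
      simp only [eq_intCast]
      push_cast
      rw [hc]
      push_cast
      ring
    · exact ⟨0, fun h => absurd h hi⟩
  choose B hB using hA'
  let B' : ℕ → PowerSeries ℤ := fun i => if i < n then B i else 1
  have hB' : ∀ i ≤ n, iZ (B' i) = PowerSeries.C ((e : ℚ) ^ (n - i)) * a i := by
    intro i hi
    by_cases hin : i < n
    · simp only [B', if_pos hin]; exact hB i hin
    · have : i = n := by omega
      subst this
      simp [B', han]
  -- relation: v' = d1 d2 v, u' = d1 d2 e v x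
  have hVQ : iZ (PowerSeries.C d2 * V) = PowerSeries.C ((d1 * d2 : ℤ) : ℚ) * v := by
    rw [map_mul, hV, PowerSeries.map_C, ← mul_assoc, ← map_mul]
    congr 2
    simp; ring
  have hUQ : iZ (PowerSeries.C (d1 * e) * U) =
      PowerSeries.C ((d1 * d2 : ℤ) : ℚ) * v * (PowerSeries.C (e : ℚ) * x) := by
    rw [map_mul, hU, PowerSeries.map_C]
    have : PowerSeries.C ((d1 * d2 : ℤ) : ℚ) * v * (PowerSeries.C (e : ℚ) * x) =
      PowerSeries.C ((d1 * d2 : ℤ) : ℚ) * PowerSeries.C (e : ℚ) * (v * x) := by ring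
    rw [this, ← mul_assoc, ← map_mul, ← map_mul]
    congr 2
    simp; ring
  have hrel : ∑ i ∈ Finset.range (n + 1), B' i * (PowerSeries.C (d1 * e) * U) ^ i *
      (PowerSeries.C d2 * V) ^ (n - i) = 0 := by
    apply iZ_injective
    rw [map_sum, map_zero]
    have h1 : ∀ i ∈ Finset.range (n + 1), iZ (B' i * (PowerSeries.C (d1 * e) * U) ^ i *
      (PowerSeries.C d2 * V) ^ (n - i)) =
        (PowerSeries.C ((d1 * d2 : ℤ) : ℚ) * v * PowerSeries.C (e : ℚ)) ^ n * (a i * x ^ i) := by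
      intro i hi
      rw [Finset.mem_range] at hi
      rw [map_mul, map_mul, map_pow, map_pow, hB' i (by omega), hVQ, hUQ]
      have e1 : n = i + (n - i) := by omega
      have e2 : (PowerSeries.C ((d1 * d2 : ℤ) : ℚ) * v * PowerSeries.C (e : ℚ)) ^ n =
        (PowerSeries.C ((d1 * d2 : ℤ) : ℚ) * v * PowerSeries.C (e : ℚ)) ^ i *
        (PowerSeries.C ((d1 * d2 : ℤ) : ℚ) * v * PowerSeries.C (e : ℚ)) ^ (n - i) := by
        rw [← pow_add, ← e1]
      rw [e2, map_pow]
      ring
    rw [Finset.sum_congr rfl h1, ← Finset.mul_sum, h, mul_zero]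
  have hV0 : PowerSeries.C d2 * V ≠ 0 := by
    intro h0
    rw [h0, map_zero] at hVQ
    have h1 : (PowerSeries.C ((d1 * d2 : ℤ) : ℚ) : PowerSeries ℚ) ≠ 0 := by
      rw [Ne, map_eq_zero_iff _ PowerSeries.C_injective]
      exact_mod_cast mul_ne_zero hd1 hd2
    rcases mul_eq_zero.mp hVQ.symm with h2 | h2
    · exact h1 h2
    · exact hv0 h2
  obtain ⟨Z, hZ⟩ := dvd_of_relation B' (by simp [B']) hV0 hrel
  rw [mem_BD_iff]
  refine ⟨e, he0, Z, ?_⟩
  have h1 := congrArg iZ hZ
  rw [hUQ, map_mul, hVQ] at h1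
  have h2 : PowerSeries.C ((d1 * d2 : ℤ) : ℚ) * v ≠ 0 := by
    rw [← hVQ]
    intro h0
    exact hV0 (iZ_injective (by rw [h0, map_zero]))
  exact (mul_left_cancel₀ h2 h1).symm

/-- Level one forms have bounded denominators after applying a functional. -/
theorem lam_levelOne {k : ℤ} {g : ℍ → ℂ} (hg : IsForm 1 k g) (l : ℂ →ₗ[ℚ] ℚ) :
    lam l (qExpansion 1 g) ∈ BD := by
  have h := levelOne_span hg
  have key : ∀ x ∈ intSpan k, IsForm 1 k x ∧ ∀ l : ℂ →ₗ[ℚ] ℚ, lam l (qExpansion 1 x) ∈ BD := by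
    intro x hx
    refine Submodule.span_induction (p := fun x _ => IsForm 1 k x ∧
      ∀ l : ℂ →ₗ[ℚ] ℚ, lam l (qExpansion 1 x) ∈ BD) ?_ ?_ ?_ ?_ hx
    · rintro y ⟨hy, hyi⟩
      refine ⟨hy, fun l => ?_⟩
      refine ⟨(l 1).den, by exact_mod_cast (l 1).den_ne_zero, fun n => ?_⟩
      obtain ⟨m, hm⟩ := hyi n
      refine ⟨(l 1).num * m, ?_⟩
      rw [coeff_lam, hm]
      have : ((m : ℤ) : ℂ) = (m : ℚ) • (1 : ℂ) := by
        rw [Algebra.smul_def]; simp
      rw [this, map_smul, smul_eq_mul]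
      push_cast
      have h2 := Rat.mul_den_eq_num (l 1)
      linear_combination (m : ℚ) * h2
    · exact ⟨IsForm.zero, fun l => by rw [qExpansion_zero, map_zero]; exact zero_mem _⟩
    · rintro x y _ _ ⟨hx, hx'⟩ ⟨hy, hy'⟩
      exact ⟨hx.add hy, fun l => by
        rw [qE_add hx.mem_perSub hy.mem_perSub, map_add]; exact add_mem (hx' l) (hy' l)⟩
    · rintro a x _ ⟨hx, hx'⟩
      refine ⟨hx.smul a, fun l => ?_⟩
      rw [qE_smul hx.mem_perSub]
      have : lam l (a • qExpansion 1 x) =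
          lam (l.comp (LinearMap.mulLeft ℚ a)) (qExpansion 1 x) := by
        ext n
        simp
      rw [this]
      exact hx' _
  exact (key g h).2 l

variable {N : ℕ} [NeZero N]

/-- A form of level `Γ₀(N)` with rational coefficients has bounded denominators. -/
theorem bounded_denominators {k : ℤ} {f : ℍ → ℂ} (hf : IsForm N k f)
    (x : PowerSeries ℚ) (hx : iQ x = qExpansion 1 f) : x ∈ BD := by
  have hN0 : N ≠ 0 := NeZero.ne N
  have hh := isForm_hN hN0
  have hhi := isInt_hN hN0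
  set n := Fintype.card (Coset N) with hn
  -- rational expansion of h
  obtain ⟨H, hH⟩ : ∃ H : PowerSeries ℤ, iQ (iZ H) = qExpansion 1 (hN N) := by
    choose m hm using hhi
    refine ⟨PowerSeries.mk m, ?_⟩
    ext i
    rw [hm]
    simp
  have hHBD : iZ H ∈ BD := ⟨1, one_ne_zero, fun i => ⟨H.coeff i, by simp⟩⟩
  -- a functional with l 1 = 1
  obtain ⟨l0, hl0⟩ : ∃ l : ℂ →ₗ[ℚ] ℚ, l 1 = 1 := by
    obtain ⟨l, hl⟩ := Module.Projective.exists_dual_ne_zero ℚ (one_ne_zero : (1 : ℂ) ≠ 0)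
    exact ⟨(l 1)⁻¹ • l, by simp [hl]⟩
  -- D and its functional
  set D : ℍ → ℂ := dif (N := N) 12 (hN N) with hD
  have hDform : IsForm N (12 * ((n : ℤ) - 1)) D := isForm_dif hh hhi
  have hD0 : D ≠ 0 := dif_hN_ne_zero
  have hDq : qExpansion 1 D ≠ 0 := by
    intro h
    apply hD0
    apply qE_inj hDform.mem_perSub (zero_mem _)
    rw [h, qExpansion_zero]
  obtain ⟨j, hj⟩ : ∃ j, (qExpansion 1 D).coeff j ≠ 0 := by
    by_contra hcon
    push Not at hcon
    exact hDq (by ext j; simpa using hcon j)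
  obtain ⟨l, hl⟩ := Module.Projective.exists_dual_ne_zero ℚ hj
  have hv0 : lam l (qExpansion 1 D) ≠ 0 := by
    intro h
    apply hl
    have := congrArg (PowerSeries.coeff j) h
    simpa using this
  -- combos
  have hcomb : ∀ {k' : ℤ} {g : ℍ → ℂ}, IsForm N k' g → lam l (qExpansion 1 (g * D)) ∈ BD := by
    intro k' g hg
    rw [hD, mul_dif_eq hg hh, qE_sum]
    · rw [map_sum]
      apply sum_mem
      intro i _
      have hGi := isForm_coeff_interp hg hh i
      rw [qE_mul hGi.mem_perSub (pow_mem hh.mem_perSub i), qE_pow hh.mem_perSub, ← hH, ← map_pow,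
        lam_mul]
      exact mul_mem (lam_levelOne hGi l) (pow_mem hHBD i)
    · intro i _
      exact mul_mem (isForm_coeff_interp hg hh i).mem_perSub (pow_mem hh.mem_perSub i)
  have hvBD : lam l (qExpansion 1 D) ∈ BD := by
    have := hcomb (IsForm.one (N := N))
    rwa [one_mul] at this
  have hvx : lam l (qExpansion 1 D) * x ∈ BD := by
    have := hcomb hf
    rwa [qE_mul hf.mem_perSub hDform.mem_perSub, ← hx, mul_comm, lam_mul] at this
  -- the relation
  have hrel := chr_relation hf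
  rw [← hn] at hrel
  have hrel' : ∑ i ∈ Finset.range (n + 1),
      lam l0 (qExpansion 1 ((chr (conj (N := N) k f)).coeff i)) * x ^ i = 0 := by
    have h1 := congrArg (qExpansion 1) hrel
    rw [qE_sum _ (fun i _ => mul_mem (isForm_coeff_chr hf i).mem_perSub
      (pow_mem hf.mem_perSub i)), qExpansion_zero] at h1
    have h2 := congrArg (lam l0) h1
    rw [map_sum, map_zero] at h2
    rw [← h2]
    apply Finset.sum_congr rfl
    intro i _
    rw [qE_mul (isForm_coeff_chr hf i).mem_perSub (pow_mem hf.mem_perSub i),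
      qE_pow hf.mem_perSub, ← hx, ← map_pow, lam_mul]
  apply BD_integral _ _ _ hvBD hv0 hvx hrel'
  · rw [hn, chr_coeff_card, qExpansion_one]
    ext i
    rw [coeff_lam, PowerSeries.coeff_one, PowerSeries.coeff_one]
    split_ifs
    · exact hl0
    · exact map_zero _
  · intro i
    exact lam_levelOne (isForm_coeff_chr hf i) l0

end

end Fermat.Agent.IntStr
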