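import Mathlib
import Fermat.Prelude.Def_CuspForm_IntegralStructure
import Fermat.Agent.DS.Restrict
import Fermat.Agent.IntStr.FixedField
import Fermat.Agent.IntStr.Integral
import Fermat.Agent.IntStr.Cusp

set_option autoImplicit false

/-!
# Integral structure on cusp forms of level `Γ₀(N)`
-/

open UpperHalfPlane ModularForm CongruenceSubgroup Matrix.SpecialLinearGroup Filter
open scoped MatrixGroups Manifold Topology

namespace Fermat.Agent.IntStr

noncomputable section

theorem span_rational {V : Type*} [AddCommGroup V] [Module ℂ V] [FiniteDimensional ℂ V]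
    (a : ℕ → V →ₗ[ℂ] ℂ) (hinj : ∀ v, (∀ n, a n v = 0) → v = 0)
    (hσ : ∀ (σ : ℂ →+* ℂ) (v : V), ∃ v', ∀ n, a n v' = σ (a n v)) :
    Submodule.span ℂ {v | ∀ n, ∃ r : ℚ, a n v = r} = ⊤ := by
  classical
  have hW : Submodule.span ℂ (Set.range a) = (⊤ : Submodule ℂ (Module.Dual ℂ V)) := by
    have h1 : (Submodule.span ℂ (Set.range a)).dualCoannihilator = ⊥ := by
      rw [eq_bot_iff]
      intro v hv
      rw [Submodule.mem_dualCoannihilator] at hv
      rw [Submodule.mem_bot]
      exact hinj v fun n => hv (a n) (Submodule.subset_span ⟨n, rfl⟩)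
    rw [← Subspace.dualCoannihilator_dualAnnihilator_eq (W := Submodule.span ℂ (Set.range a)), h1]
    exact Submodule.dualAnnihilator_bot
  let b := Module.Basis.ofSpan hW.ge
  have hb : ∀ i, ∃ n, b i = a n := by
    intro i
    have := Module.Basis.ofSpan_subset hW.ge ⟨i, rfl⟩
    obtain ⟨n, hn⟩ := this
    exact ⟨n, hn.symm⟩
  have : Finite _ := Module.Finite.finite_basis b
  let e := b.dualBasis.map (Module.evalEquiv ℂ V).symm
  have hbe : ∀ i j, b i (e j) = if j = i then 1 else 0 := by
    intro i j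
    have h1 : (Module.evalEquiv ℂ V) (e j) = b.dualBasis j := by
      simp [e]
    have h2 : b i (e j) = (Module.evalEquiv ℂ V) (e j) (b i) := rfl
    rw [h2, h1]
    simp [Finsupp.single_apply, eq_comm]
  have hfix : ∀ j, ∀ n, ∃ r : ℚ, a n (e j) = r := by
    intro j n
    obtain ⟨r, hr⟩ := rational_of_fixed (a n (e j)) (by
      intro σ
      obtain ⟨v', hv'⟩ := hσ σ (e j)
      have hve : v' = e j := by
        rw [← sub_eq_zero]
        rw [← Module.forall_dual_apply_eq_zero_iff ℂ]
        intro φ
        have hφ : φ ∈ Submodule.span ℂ (Set.range b) := by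
          rw [b.span_eq]; trivial
        induction hφ using Submodule.span_induction with
        | mem x hx =>
          obtain ⟨i, rfl⟩ := hx
          obtain ⟨m, hm⟩ := hb i
          have h1 := hbe i j
          rw [map_sub, hm, hv' m, ← hm, h1]
          split_ifs <;> simp
        | zero => rfl
        | add x y _ _ hx hy => rw [LinearMap.add_apply, hx, hy, add_zero]
        | smul c x _ hx => rw [LinearMap.smul_apply, hx, smul_zero]
      rw [← hv' n, hve])
    exact ⟨r, hr.symm⟩
  rw [eq_top_iff, ← e.span_eq]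
  apply Submodule.span_mono
  rintro _ ⟨j, rfl⟩
  exact hfix j

variable {N : ℕ} [NeZero N] {k : ℤ}

theorem isForm_of_cuspForm (F : CuspForm (Gamma0 N) k) : IsForm N k F := by
  have := IsForm.of_modularForm (ModularFormClass.modularForm F : ModularForm (Gamma0 N) k)
  exact this

theorem isCuspF_of_cuspForm (F : CuspForm (Gamma0 N) k) : IsCuspF k F := by
  intro γ
  have hc : IsCusp (mapGL ℝ γ • OnePoint.infty) (Gamma0 N : Subgroup (GL (Fin 2) ℝ)) := by
    rw [Subgroup.IsArithmetic.isCusp_iff_isCusp_SL2Z, isCusp_SL2Z_iff']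
    exact ⟨γ, rfl⟩
  exact F.zero_at_cusps' hc _ rfl

/-- bundle a cusp form -/
def mkCuspForm {f : ℍ → ℂ} (hf : IsForm N k f) (h0 : IsCuspF k f) : CuspForm (Gamma0 N) k where
  toFun := f
  slash_action_eq' := by
    rintro _ ⟨γ, hγ, rfl⟩
    exact hf.slash γ hγ
  holo' := hf.holo
  zero_at_cusps' hc := by
    rw [Subgroup.IsArithmetic.isCusp_iff_isCusp_SL2Z] at hc
    rw [OnePoint.isZeroAt_iff_forall_SL2Z hc]
    intro γ _
    exact h0 γ

open Fermat.Agent.DS in
/-- **Integral structure**, all levels and weights. -/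
theorem hasIntegralStructure (N : ℕ) [NeZero N] (k : ℤ) : CuspForm.HasIntegralStructure N k := by
  have h1 := span_rational (V := CuspForm (Gamma0 N) k) (coeffL N k) (by
      intro v hv
      exact eq_zero_of_coeffs v fun n _ => hv n) (by
      intro σ v
      obtain ⟨F, hF, hF0, hFq⟩ := exists_conj_cusp (isForm_of_cuspForm v)
        (isCuspF_of_cuspForm v) σ
      refine ⟨mkCuspForm hF hF0, fun n => ?_⟩
      have h2 : qExpansion 1 (⇑(mkCuspForm hF hF0)) = (qExpansion 1 (⇑v)).map σ := hFq
      show (qExpansion 1 (⇑(mkCuspForm hF hF0))).coeff n = σ ((qExpansion 1 (⇑v)).coeff n)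
      rw [h2, PowerSeries.coeff_map])
  rw [CuspForm.HasIntegralStructure, eq_top_iff, ← h1, Submodule.span_le]
  intro v hv
  choose r hr using hv
  have hBD := bounded_denominators (isForm_of_cuspForm v) (PowerSeries.mk r) (by
    ext n
    have := hr n
    simp only [coeffL_apply, ModularFormClass.qCoeff] at this
    simp [this])
  obtain ⟨d, hd, hdm⟩ := hBD
  have hdC : (d : ℂ) ≠ 0 := by exact_mod_cast hd
  have hmem : ((d : ℂ) • v) ∈ CuspForm.intLattice N k := by
    rw [mem_intLattice]
    intro n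
    obtain ⟨m, hm⟩ := hdm n
    refine ⟨m, ?_⟩
    have h2 : ModularFormClass.qCoeff (⇑((d : ℂ) • v)) n = d * ModularFormClass.qCoeff v n :=
      (coeffL N k n).map_smul (d : ℂ) v
    have h3 : ModularFormClass.qCoeff v n = r n := hr n
    rw [h2, h3]
    rw [PowerSeries.coeff_mk] at hm
    exact_mod_cast hm
  have h4 : v = (d : ℂ)⁻¹ • ((d : ℂ) • v) := by
    rw [smul_smul, inv_mul_cancel₀ hdC, one_smul]
  rw [SetLike.mem_coe, h4]
  exact Submodule.smul_mem _ _ (Submodule.subset_span hmem)

end

end Fermat.Agent.IntStr
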