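import Mathlib
import Fermat.Agent.IntStr.DeltaN

set_option autoImplicit false

/-!
# `Δ ∣[12] diag(N,1)`: level, stabiliser, boundedness (interface for other files)
-/

open UpperHalfPlane ModularForm CongruenceSubgroup Matrix.SpecialLinearGroup Filter
open scoped MatrixGroups Manifold Topology

namespace Fermat.Agent.IntStr

noncomputable section

theorem isForm_discriminant (N : ℕ) : IsForm N 12 (ModularForm.discriminant : ℍ → ℂ) := by
  have h := (isForm_delta' N).smul (1728 : ℂ)⁻¹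
  rwa [delta'_eq, smul_smul, inv_mul_cancel₀ (by norm_num), one_smul] at h

theorem isForm_discN {N : ℕ} (h0 : N ≠ 0) :
    IsForm N 12 ((ModularForm.discriminant : ℍ → ℂ) ∣[(12 : ℤ)] heckeDiagMatrix N) :=
  isForm_scale h0 (isForm_discriminant 1)

theorem gamma0_of_slash_discN {N : ℕ} (h0 : N ≠ 0) {γ : SL(2, ℤ)}
    (h : ((ModularForm.discriminant : ℍ → ℂ) ∣[(12 : ℤ)] heckeDiagMatrix N) ∣[(12 : ℤ)] γ =
      (ModularForm.discriminant : ℍ → ℂ) ∣[(12 : ℤ)] heckeDiagMatrix N) : γ ∈ Gamma0 N := by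
  have hσ : σ (heckeDiagMatrix N) (1728 : ℂ) = 1728 := by
    rw [σ_heckeDiagMatrix]; rfl
  have e : hN N = (1728 : ℂ) • ((ModularForm.discriminant : ℍ → ℂ) ∣[(12 : ℤ)]
      heckeDiagMatrix N) := by
    rw [hN, delta'_eq, smul_slash, hσ]
  apply gamma0_of_slash_hN h0
  rw [e, SL_smul_slash, h]

/-- all conjugates are holomorphic and bounded at `i∞` -/
theorem slash_discN_mem {N : ℕ} (h0 : N ≠ 0) (γ : SL(2, ℤ)) :
    MDiff (((ModularForm.discriminant : ℍ → ℂ) ∣[(12 : ℤ)] heckeDiagMatrix N) ∣[(12 : ℤ)] γ) ∧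
    IsBoundedAtImInfty
      (((ModularForm.discriminant : ℍ → ℂ) ∣[(12 : ℤ)] heckeDiagMatrix N) ∣[(12 : ℤ)] γ) :=
  (isForm_discN h0).mem_bddSub_slash γ

end

end Fermat.Agent.IntStr
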